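/-
S55 / block NIT / sub-block FI (first inequality, idele-free form): definitions.
Everything here is global and uses Mathlib vocabulary only.
-/
import Mathlib

set_option autoImplicit false

namespace Fermat.Agent.S55.NIT.FI

open NumberField IsDedekindDomain

/-- The finite primes of a number field. -/
abbrev Pl (K : Type*) [Field K] [NumberField K] := HeightOneSpectrum (𝓞 K)

section one

variable (K : Type*) [Field K] [NumberField K]

/-- The group of `S`-units (Mathlib's `Set.unit`). -/
noncomputable abbrev sU (S : Set (Pl K)) : Subgroup Kˣ := S.unit K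

/-- `Cl_S(K) = 1`, in the form: every prime outside `S` has a generator up to `S`. -/
def ClassGen (S : Set (Pl K)) : Prop :=
  ∀ v : Pl K, v ∉ S → ∃ c : Kˣ, v.valuation K (c : K) = WithZero.exp (-1 : ℤ) ∧
    ∀ v' : Pl K, v' ∉ S → v' ≠ v → v'.valuation K (c : K) = 1

end one

section two

variable (K L : Type*) [Field K] [NumberField K] [Field L] [NumberField L] [Algebra K L]

/-- The primes of `L` lying over a set of primes of `K`. -/
def above (S : Set (Pl K)) : Set (Pl L) := {w | w.under (𝓞 K) ∈ S}

/-- `L/K` is unramified at all primes outside `S`. -/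
def UnramOutside (S : Set (Pl K)) : Prop :=
  ∀ w : Pl L, w.under (𝓞 K) ∉ S → (w.under (𝓞 K)).asIdeal.ramificationIdx' w.asIdeal = 1

/-- The norm on units. -/
noncomputable abbrev normU : Lˣ →* Kˣ := Units.map (Algebra.norm K : L →* K)

/-- The group of norms of `S`-units of `L`. -/
noncomputable def normImage (S : Set (Pl K)) : Subgroup Kˣ := ((above K L S).unit L).map (normU K L)

open Classical in
/-- The primes of `S` with exactly one prime of `L` above them. -/
noncomputable def nonsplit (S : Finset (Pl K)) : Finset (Pl K) :=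
  S.filter fun v => (v.asIdeal.primesOver (𝓞 L)).ncard = 1

end two

/-- **Tate's lemma** for a cyclic group of prime order `p` (to be supplied by block CYC), in
cardinality form: `h(A)^(p-1) = φ(A^G)^p / φ(A)` with `φ(A) = |A/pA| / |A[p]|`. -/
def TateLemma.{u} (p : ℕ) : Prop :=
  ∀ (A : Type u) [AddCommGroup A] (s : A →+ A), (∀ a, s^[p] a = a) →
    Finite (A ⧸ (zsmulAddGroupHom (p : ℤ) : A →+ A).range) →
    Finite (zsmulAddGroupHom (p : ℤ) : A →+ A).ker →
    ∀ (D N : A →+ A), (∀ a, D a = s a - a) → (∀ a, N a = ∑ i ∈ Finset.range p, s^[i] a) →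
      Finite (D.ker ⧸ N.range.addSubgroupOf D.ker) ∧
      Finite (N.ker ⧸ D.range.addSubgroupOf N.ker) ∧
      Finite (D.ker ⧸ (zsmulAddGroupHom (p : ℤ) : D.ker →+ D.ker).range) ∧
      Nat.card (D.ker ⧸ N.range.addSubgroupOf D.ker) ^ (p - 1) *
          Nat.card (A ⧸ (zsmulAddGroupHom (p : ℤ) : A →+ A).range) *
          Nat.card (zsmulAddGroupHom (p : ℤ) : D.ker →+ D.ker).ker ^ p =
        Nat.card (N.ker ⧸ D.range.addSubgroupOf N.ker) ^ (p - 1) *
          Nat.card (zsmulAddGroupHom (p : ℤ) : A →+ A).ker *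
          Nat.card (D.ker ⧸ (zsmulAddGroupHom (p : ℤ) : D.ker →+ D.ker).range) ^ p

end Fermat.Agent.S55.NIT.FI
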