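/-
S55 / NIT / FI, block FI-2: a power of every prime of a number field is principal.
Owner: helper279.
-/
import Fermat.Agent.S55.NIT.FI.Defs

set_option autoImplicit false

namespace Fermat.Agent.S55.NIT.FI

open NumberField IsDedekindDomain

/-- A power (with positive exponent) of every prime ideal of `𝓞 K` is principal. -/
theorem exists_pow_eq_span (K : Type*) [Field K] [NumberField K] (v : Pl K) :
    ∃ (a : 𝓞 K) (h : ℕ), 0 < h ∧ a ≠ 0 ∧ v.asIdeal ^ h = Ideal.span {a} := by
  classical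
  set h : ℕ := Fintype.card (ClassGroup (𝓞 K)) with hh
  have hpos : 0 < h := Fintype.card_pos
  have hv0 : v.asIdeal ∈ nonZeroDivisors (Ideal (𝓞 K)) :=
    mem_nonZeroDivisors_of_ne_zero v.ne_bot
  have h1 : (ClassGroup.mk0 (⟨v.asIdeal, hv0⟩ : nonZeroDivisors (Ideal (𝓞 K)))) ^ h = 1 :=
    pow_card_eq_one
  rw [← map_pow, ClassGroup.mk0_eq_one_iff] at h1
  obtain ⟨a, ha⟩ := h1.principal
  have ha' : v.asIdeal ^ h = Ideal.span {a} := by
    simpa using ha
  refine ⟨a, h, hpos, ?_, ha'⟩
  rintro rfl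
  have : v.asIdeal ^ h = ⊥ := by simpa using ha'
  exact v.ne_bot (pow_eq_zero_iff hpos.ne' |>.mp this)

/-- Valuations of a generator of `v ^ h`. -/
theorem intValuation_of_pow_eq_span {R : Type*} [CommRing R] [IsDedekindDomain R]
    (v : HeightOneSpectrum R) {a : R} {h : ℕ} (ha0 : a ≠ 0)
    (ha : v.asIdeal ^ h = Ideal.span {a}) :
    v.intValuation a = WithZero.exp (-(h : ℤ)) := by
  rw [v.intValuation_if_neg ha0, ← ha, Associates.mk_pow,
    Associates.count_pow (Associates.mk_ne_zero.mpr v.ne_bot) v.associates_irreducible,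
    Associates.count_self v.associates_irreducible, mul_one]

theorem intValuation_of_pow_eq_span_of_ne {R : Type*} [CommRing R] [IsDedekindDomain R]
    (v v' : HeightOneSpectrum R) (hne : v' ≠ v) {a : R} {h : ℕ}
    (ha : v.asIdeal ^ h = Ideal.span {a}) :
    v'.intValuation a = 1 := by
  rw [HeightOneSpectrum.intValuation_eq_one_iff]
  intro hmem
  have h1 : v.asIdeal ^ h ≤ v'.asIdeal := by
    rw [ha, Ideal.span_singleton_le_iff_mem]
    exact hmem
  have h2 : v.asIdeal ≤ v'.asIdeal := v'.isPrime.le_of_pow_le h1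
  have h3 : v.asIdeal = v'.asIdeal := v.isMaximal.eq_of_le v'.isPrime.ne_top h2
  exact hne (HeightOneSpectrum.ext h3.symm)

theorem exists_generator_pow (K : Type*) [Field K] [NumberField K] (v : Pl K) :
    ∃ (c : Kˣ) (h : ℕ), 0 < h ∧ v.valuation K (c : K) = WithZero.exp (-(h : ℤ)) ∧
      ∀ v' : Pl K, v' ≠ v → v'.valuation K (c : K) = 1 := by
  obtain ⟨a, h, hpos, ha0, ha⟩ := exists_pow_eq_span K v
  have hc0 : algebraMap (𝓞 K) K a ≠ 0 := by
    simpa using ha0
  refine ⟨Units.mk0 _ hc0, h, hpos, ?_, fun v' hv' => ?_⟩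
  · rw [Units.val_mk0, HeightOneSpectrum.valuation_of_algebraMap]
    exact intValuation_of_pow_eq_span v ha0 ha
  · rw [Units.val_mk0, HeightOneSpectrum.valuation_of_algebraMap]
    exact intValuation_of_pow_eq_span_of_ne v v' hv' ha

end Fermat.Agent.S55.NIT.FI
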