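/-
S55 / NIT / FI, block FI-8: the Galois action on the finite places of `L`.
-/
import Fermat.Agent.S55.NIT.FI.Defs

set_option autoImplicit false

namespace Fermat.Agent.S55.NIT.FI

open NumberField IsDedekindDomain

/-! ### Generalities on `ℤᵐ⁰` and on valuations transported along ring isomorphisms -/

/-- Two elements `≤ 1` of `ℤᵐ⁰` lying below the same `exp (-n)` are equal (one inequality). -/
theorem GaloisVal.le_of_forall_le_exp {a b : WithZero (Multiplicative ℤ)} (hb : b ≤ 1)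
    (h : ∀ n : ℕ, b ≤ WithZero.exp (-(n : ℤ)) → a ≤ WithZero.exp (-(n : ℤ))) : a ≤ b := by
  by_cases hb0 : b = 0
  · subst hb0
    by_cases ha0 : a = 0
    · exact ha0.le
    · exfalso
      obtain ⟨m, rfl⟩ : ∃ m : ℤ, a = WithZero.exp m := ⟨WithZero.log a, (WithZero.exp_log ha0).symm⟩
      have := h (-m + 1).toNat zero_le
      rw [WithZero.exp_le_exp] at this
      omega
  · obtain ⟨m, rfl⟩ : ∃ m : ℤ, b = WithZero.exp m := ⟨WithZero.log b, (WithZero.exp_log hb0).symm⟩
    have hm : m ≤ 0 := by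
      rw [← WithZero.exp_zero, WithZero.exp_le_exp] at hb
      exact hb
    have h1 : -(((-m).toNat : ℕ) : ℤ) = m := by omega
    have := h (-m).toNat
    rw [h1] at this
    exact this le_rfl

theorem GaloisVal.eq_of_forall_le_exp {a b : WithZero (Multiplicative ℤ)} (ha : a ≤ 1) (hb : b ≤ 1)
    (h : ∀ n : ℕ, a ≤ WithZero.exp (-(n : ℤ)) ↔ b ≤ WithZero.exp (-(n : ℤ))) : a = b :=
  le_antisymm (GaloisVal.le_of_forall_le_exp hb fun n => (h n).mpr)
    (GaloisVal.le_of_forall_le_exp ha fun n => (h n).mp)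

section general

variable {R : Type*} [CommRing R] [IsDedekindDomain R]

omit [IsDedekindDomain R] in
theorem GaloisVal.mem_comap_pow (e : R ≃+* R) (I : Ideal R) (n : ℕ) (r : R) :
    r ∈ (I.comap (e : R →+* R)) ^ n ↔ e r ∈ I ^ n := by
  have h1 : I.comap (e : R →+* R) = I.map (e.symm : R →+* R) := (Ideal.map_symm e).symm
  rw [h1, ← Ideal.map_pow]
  have h2 : (I ^ n).map (e.symm : R →+* R) = (I ^ n).comap (e : R →+* R) := Ideal.map_symm e
  rw [h2]
  rfl

theorem GaloisVal.intValuation_comap (e : R ≃+* R) (v : HeightOneSpectrum R) (r : R) :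
    (HeightOneSpectrum.comap (e : R →+* R) e.surjective v).intValuation r
      = v.intValuation (e r) := by
  refine GaloisVal.eq_of_forall_le_exp (HeightOneSpectrum.intValuation_le_one _ _)
    (HeightOneSpectrum.intValuation_le_one _ _) fun n => ?_
  rw [HeightOneSpectrum.intValuation_le_pow_iff_mem, HeightOneSpectrum.intValuation_le_pow_iff_mem,
    HeightOneSpectrum.comap_asIdeal, GaloisVal.mem_comap_pow]

theorem GaloisVal.valuation_comap {F : Type*} [Field F] [Algebra R F] [IsFractionRing R F]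
    (e : R ≃+* R) (σ : F →+* F) (hσ : ∀ r : R, σ (algebraMap R F r) = algebraMap R F (e r))
    (v : HeightOneSpectrum R) (y : F) :
    (HeightOneSpectrum.comap (e : R →+* R) e.surjective v).valuation F y
      = v.valuation F (σ y) := by
  obtain ⟨a, b, _, rfl⟩ := IsFractionRing.div_surjective (A := R) y
  rw [map_div₀, map_div₀, map_div₀, hσ, hσ, HeightOneSpectrum.valuation_of_algebraMap,
    HeightOneSpectrum.valuation_of_algebraMap, HeightOneSpectrum.valuation_of_algebraMap,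
    HeightOneSpectrum.valuation_of_algebraMap, GaloisVal.intValuation_comap,
    GaloisVal.intValuation_comap]

end general

section two

variable (K L : Type*) [Field K] [NumberField K] [Field L] [NumberField L] [Algebra K L]

/-- The place `σ⁻¹ w`. -/
noncomputable def GaloisVal.comapPl (σ : L ≃ₐ[K] L) (w : Pl L) : Pl L :=
  HeightOneSpectrum.comap
    ((MulSemiringAction.toRingEquiv (L ≃ₐ[K] L) (𝓞 L) σ : 𝓞 L ≃+* 𝓞 L) : 𝓞 L →+* 𝓞 L)
    (MulSemiringAction.toRingEquiv (L ≃ₐ[K] L) (𝓞 L) σ).surjective w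

omit [NumberField K] in
theorem GaloisVal.comapPl_valuation (σ : L ≃ₐ[K] L) (w : Pl L) (y : L) :
    (GaloisVal.comapPl K L σ w).valuation L y = w.valuation L (σ y) :=
  GaloisVal.valuation_comap (MulSemiringAction.toRingEquiv (L ≃ₐ[K] L) (𝓞 L) σ)
    (σ : L →+* L) (fun _ => rfl) w y

omit [NumberField K] in
theorem GaloisVal.comapPl_under (σ : L ≃ₐ[K] L) (w : Pl L) :
    (GaloisVal.comapPl K L σ w).under (𝓞 K) = w.under (𝓞 K) := by
  ext x
  have hx : MulSemiringAction.toRingEquiv (L ≃ₐ[K] L) (𝓞 L) σ (algebraMap (𝓞 K) (𝓞 L) x)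
      = algebraMap (𝓞 K) (𝓞 L) x := by
    apply RingOfIntegers.ext
    change σ (algebraMap (𝓞 L) L (algebraMap (𝓞 K) (𝓞 L) x)) = _
    rw [← IsScalarTower.algebraMap_apply (𝓞 K) (𝓞 L) L, IsScalarTower.algebraMap_apply (𝓞 K) K L,
      AlgEquiv.commutes]
    rfl
  simp only [HeightOneSpectrum.under_asIdeal, Ideal.mem_comap, Ideal.under_def,
    GaloisVal.comapPl, HeightOneSpectrum.comap_asIdeal, RingHom.coe_coe, hx]

set_option linter.unusedSectionVars false in
theorem exists_valuation_comp (σ : L ≃ₐ[K] L) (w : Pl L) :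
    ∃ w' : Pl L, w'.under (𝓞 K) = w.under (𝓞 K) ∧
      ∀ y : L, w'.valuation L y = w.valuation L (σ y) :=
  ⟨GaloisVal.comapPl K L σ w, GaloisVal.comapPl_under K L σ w,
    GaloisVal.comapPl_valuation K L σ w⟩

theorem exists_galois_of_under_eq [IsGalois K L] (w w' : Pl L)
    (h : w.under (𝓞 K) = w'.under (𝓞 K)) :
    ∃ σ : L ≃ₐ[K] L, ∀ y : L, w'.valuation L y = w.valuation L (σ y) := by
  have : IsGaloisGroup (L ≃ₐ[K] L) (𝓞 K) (𝓞 L) := IsGaloisGroup.of_isFractionRing _ _ _ K L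
  have h' : w.asIdeal.under (𝓞 K) = w'.asIdeal.under (𝓞 K) := congrArg (·.asIdeal) h
  obtain ⟨σ, hσ⟩ := Algebra.IsInvariant.exists_smul_of_under_eq (𝓞 K) (𝓞 L) (L ≃ₐ[K] L)
    w.asIdeal w'.asIdeal h'
  refine ⟨σ⁻¹, fun y => ?_⟩
  rw [← GaloisVal.comapPl_valuation K L σ⁻¹ w y]
  have hw : w' = GaloisVal.comapPl K L σ⁻¹ w := by
    ext x
    rw [hσ, Ideal.pointwise_smul_eq_comap]
    rfl
  rw [hw]

theorem map_mem_sU (σ : L ≃ₐ[K] L) (S : Set (Pl K)) {y : Lˣ} (hy : y ∈ sU L (above K L S)) :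
    Units.map (σ : L →* L) y ∈ sU L (above K L S) := by
  intro w hw
  obtain ⟨w', hw', hval⟩ := exists_valuation_comp K L σ w
  have hw'S : w' ∉ above K L S := by
    intro hmem
    apply hw
    change w.under (𝓞 K) ∈ S
    rw [← hw']
    exact hmem
  have := hy w' hw'S
  rw [hval] at this
  exact this

end two

end Fermat.Agent.S55.NIT.FI
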