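/-
S55 / NIT / FI-7 : counting the primes of `L` above a finite set of primes of `K`.
-/
import Fermat.Agent.S55.NIT.FI.Defs

set_option autoImplicit false

namespace Fermat.Agent.S55.NIT.FI

open NumberField IsDedekindDomain

section two

variable (K L : Type*) [Field K] [NumberField K] [Field L] [NumberField L] [Algebra K L]

/-- The aboveFibre of `under` over a prime `v`. -/
def aboveFibre (v : Pl K) : Set (Pl L) := {w | w.under (𝓞 K) = v}

theorem asIdeal_image_aboveFibre (v : Pl K) :
    HeightOneSpectrum.asIdeal '' (aboveFibre K L v) = v.asIdeal.primesOver (𝓞 L) := by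
  ext Q
  constructor
  · rintro ⟨w, hw, rfl⟩
    refine ⟨w.isPrime, ⟨?_⟩⟩
    have : (w.under (𝓞 K)).asIdeal = v.asIdeal := by rw [show w.under (𝓞 K) = v from hw]
    rw [← this]; rfl
  · rintro ⟨hQ, hQv⟩
    have hne : Q ≠ ⊥ := by
      intro h
      have h1 : v.asIdeal = Q.under (𝓞 K) := hQv.over
      rw [h] at h1
      apply v.ne_bot
      rw [h1]
      exact Ideal.under_bot _ _
    refine ⟨⟨Q, hQ, hne⟩, ?_, rfl⟩
    show HeightOneSpectrum.under (𝓞 K) _ = v
    ext1
    exact hQv.over.symm

theorem aboveFibre_finite (v : Pl K) : (aboveFibre K L v).Finite := by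
  have h : (HeightOneSpectrum.asIdeal '' (aboveFibre K L v)).Finite := by
    rw [asIdeal_image_aboveFibre]
    exact IsDedekindDomain.primesOver_finite _ _
  exact h.of_finite_image (fun _ _ _ _ h => HeightOneSpectrum.ext h)

theorem ncard_aboveFibre (v : Pl K) :
    (aboveFibre K L v).ncard = (v.asIdeal.primesOver (𝓞 L)).ncard := by
  rw [← asIdeal_image_aboveFibre]
  exact (Set.ncard_image_of_injective _ (fun _ _ h => HeightOneSpectrum.ext h)).symm

theorem above_eq_biUnion (S : Set (Pl K)) : above K L S = ⋃ v ∈ S, aboveFibre K L v := by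
  ext w
  simp [above, aboveFibre]

theorem above_finite (S : Finset (Pl K)) : (above K L (S : Set (Pl K))).Finite := by
  rw [above_eq_biUnion]
  exact S.finite_toSet.biUnion (fun v _ => aboveFibre_finite K L v)

theorem ncard_above_eq_sum (S : Finset (Pl K)) :
    (above K L (S : Set (Pl K))).ncard = ∑ v ∈ S, (v.asIdeal.primesOver (𝓞 L)).ncard := by
  classical
  induction S using Finset.induction_on with
  | empty => simp [above]
  | insert v S hv ih =>
    rw [Finset.sum_insert hv, ← ih, ← ncard_aboveFibre]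
    have h1 : above K L ((insert v S : Finset (Pl K)) : Set (Pl K)) =
        aboveFibre K L v ∪ above K L (S : Set (Pl K)) := by
      ext w
      simp [above, aboveFibre]
    rw [h1]
    apply Set.ncard_union_eq _ (aboveFibre_finite K L v) (above_finite K L S)
    rw [Set.disjoint_left]
    intro w hw hw'
    apply hv
    have : w.under (𝓞 K) = v := hw
    rw [← this]
    exact hw'

theorem ncard_primesOver_eq_one_or [IsGalois K L] (p : ℕ) [Fact p.Prime]
    (hdeg : Module.finrank K L = p) (v : Pl K) :
    (v.asIdeal.primesOver (𝓞 L)).ncard = 1 ∨ (v.asIdeal.primesOver (𝓞 L)).ncard = p := by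
  have h := Ideal.ncard_primesOver_mul_ramificationIdxIn_mul_inertiaDegIn v.asIdeal (𝓞 L)
    (L ≃ₐ[K] L)
  rw [IsGalois.card_aut_eq_finrank, hdeg] at h
  exact (Nat.Prime.eq_one_or_self_of_dvd (Fact.out) _ ⟨_, h.symm⟩)

theorem ncard_above [IsGalois K L] (p : ℕ) [Fact p.Prime] (hdeg : Module.finrank K L = p)
    (S : Finset (Pl K)) :
    (above K L (S : Set (Pl K))).ncard + (p - 1) * (nonsplit K L S).card = p * S.card := by
  classical
  have hp : 1 ≤ p := (Fact.out : p.Prime).one_lt.le
  rw [ncard_above_eq_sum]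
  have h1 : (nonsplit K L S).card =
      ∑ v ∈ S, if (v.asIdeal.primesOver (𝓞 L)).ncard = 1 then 1 else 0 := by
    rw [nonsplit, Finset.card_filter]
  rw [h1, Finset.mul_sum, ← Finset.sum_add_distrib, mul_comm, ← smul_eq_mul, ← Finset.sum_const]
  apply Finset.sum_congr rfl
  intro v _
  rcases ncard_primesOver_eq_one_or K L p hdeg v with h | h
  · rw [if_pos h, h]; omega
  · by_cases h' : (v.asIdeal.primesOver (𝓞 L)).ncard = 1
    · rw [if_pos h', h']; omega
    · rw [if_neg h', h]; omega

end two

end Fermat.Agent.S55.NIT.FI
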