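import Mathlib

/-!
# S55 / NIT / FI-5 : for a finitely generated abelian group `|A/pA| = p^rank * |A[p]|`
-/

set_option autoImplicit false

namespace Fermat.Agent.S55.NIT.FI

open Module

section aux

variable {A B : Type*} [AddCommGroup A] [AddCommGroup B]

theorem range_zsmul_eq_comap (n : ℤ) (e : A ≃+ B) :
    (zsmulAddGroupHom n : A →+ A).range =
      ((zsmulAddGroupHom n : B →+ B).range).comap e.toAddMonoidHom := by
  ext x
  simp only [AddMonoidHom.mem_range, AddSubgroup.mem_comap, zsmulAddGroupHom_apply]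
  constructor
  · rintro ⟨y, rfl⟩
    exact ⟨e y, by simp [map_zsmul]⟩
  · rintro ⟨y, hy⟩
    refine ⟨e.symm y, e.injective ?_⟩
    have : e x = n • y := hy.symm
    simp [map_zsmul, this]

theorem ker_zsmul_eq_comap (n : ℤ) (e : A ≃+ B) :
    (zsmulAddGroupHom n : A →+ A).ker =
      ((zsmulAddGroupHom n : B →+ B).ker).comap e.toAddMonoidHom := by
  ext x
  simp only [AddMonoidHom.mem_ker, AddSubgroup.mem_comap, zsmulAddGroupHom_apply]
  constructor
  · intro h
    have : e (n • x) = 0 := by rw [h, map_zero]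
    simpa [map_zsmul] using this
  · intro h
    apply e.injective
    have : n • e x = 0 := h
    simp [map_zsmul, this]

theorem index_range_zsmul_congr (n : ℤ) (e : A ≃+ B) :
    (zsmulAddGroupHom n : A →+ A).range.index = (zsmulAddGroupHom n : B →+ B).range.index := by
  rw [range_zsmul_eq_comap n e]
  exact AddSubgroup.index_comap_of_surjective _ e.surjective

theorem card_ker_zsmul_congr (n : ℤ) (e : A ≃+ B) :
    Nat.card (zsmulAddGroupHom n : A →+ A).ker = Nat.card (zsmulAddGroupHom n : B →+ B).ker := by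
  rw [ker_zsmul_eq_comap n e]
  exact Nat.card_congr (e.toEquiv.subtypeEquiv (fun x => Iff.rfl))

theorem range_zsmul_prod (n : ℤ) :
    (zsmulAddGroupHom n : A × B →+ A × B).range =
      (zsmulAddGroupHom n : A →+ A).range.prod (zsmulAddGroupHom n : B →+ B).range := by
  ext ⟨x, y⟩
  simp only [AddMonoidHom.mem_range, AddSubgroup.mem_prod, zsmulAddGroupHom_apply]
  constructor
  · rintro ⟨⟨a, b⟩, h⟩
    simp only [Prod.smul_mk, Prod.mk.injEq] at h
    exact ⟨⟨a, h.1⟩, ⟨b, h.2⟩⟩
  · rintro ⟨⟨a, ha⟩, ⟨b, hb⟩⟩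
    exact ⟨(a, b), by simp [ha, hb]⟩

theorem ker_zsmul_prod (n : ℤ) :
    (zsmulAddGroupHom n : A × B →+ A × B).ker =
      (zsmulAddGroupHom n : A →+ A).ker.prod (zsmulAddGroupHom n : B →+ B).ker := by
  ext ⟨x, y⟩
  simp only [AddMonoidHom.mem_ker, AddSubgroup.mem_prod, zsmulAddGroupHom_apply, Prod.smul_mk,
    Prod.mk_eq_zero]

theorem index_range_eq_card_ker_of_finite [Finite A] (f : A →+ A) :
    f.range.index = Nat.card f.ker := by
  have h1 := AddSubgroup.card_mul_index f.ker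
  have h2 := AddSubgroup.card_mul_index f.range
  rw [AddSubgroup.index_ker] at h1
  have hpos : 0 < Nat.card f.range := Nat.card_pos
  have : Nat.card f.range * f.range.index = Nat.card f.range * Nat.card f.ker := by
    rw [h2, ← h1, mul_comm]
  exact Nat.eq_of_mul_eq_mul_left hpos this

theorem range_zsmul_pi (n : ℤ) (k : ℕ) :
    (zsmulAddGroupHom n : (Fin k → ℤ) →+ (Fin k → ℤ)).range =
      AddSubgroup.pi Set.univ (fun _ => AddSubgroup.zmultiples n) := by
  ext x
  simp only [AddMonoidHom.mem_range, zsmulAddGroupHom_apply, AddSubgroup.mem_pi, Set.mem_univ,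
    forall_true_left, AddSubgroup.mem_zmultiples_iff]
  constructor
  · rintro ⟨y, rfl⟩ i
    exact ⟨y i, by simp [mul_comm]⟩
  · intro h
    choose y hy using h
    refine ⟨y, funext fun i => ?_⟩
    rw [← hy i]
    simp [mul_comm]

theorem index_range_zsmul_pi (n : ℤ) (k : ℕ) :
    (zsmulAddGroupHom n : (Fin k → ℤ) →+ (Fin k → ℤ)).range.index = n.natAbs ^ k := by
  rw [range_zsmul_pi, AddSubgroup.index_pi]
  simp [Int.index_zmultiples]

theorem ker_zsmul_pi {n : ℤ} (hn : n ≠ 0) (k : ℕ) :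
    (zsmulAddGroupHom n : (Fin k → ℤ) →+ (Fin k → ℤ)).ker = ⊥ := by
  rw [AddSubgroup.eq_bot_iff_forall]
  intro x hx
  simp only [AddMonoidHom.mem_ker, zsmulAddGroupHom_apply] at hx
  funext i
  have := congrFun hx i
  simpa [hn] using this

theorem finrank_int_eq_zero_of_finite (T : Type*) [AddCommGroup T] [Finite T] :
    finrank ℤ T = 0 := by
  rw [finrank_eq_zero_iff_isTorsion]
  intro x
  refine ⟨⟨(Nat.card T : ℤ), ?_⟩, ?_⟩
  · rw [mem_nonZeroDivisors_iff_ne_zero]
    exact_mod_cast (Nat.card_pos (α := T)).ne'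
  · show (Nat.card T : ℤ) • x = 0
    rw [natCast_zsmul]
    exact card_nsmul_eq_zero'

theorem finrank_int_prod_finite (k : ℕ) (T : Type*) [AddCommGroup T] [Finite T] :
    finrank ℤ ((Fin k → ℤ) × T) = k := by
  have h := Submodule.finrank_quotient_add_finrank
    (LinearMap.ker (LinearMap.fst ℤ (Fin k → ℤ) T))
  have h1 : finrank ℤ (((Fin k → ℤ) × T) ⧸ LinearMap.ker (LinearMap.fst ℤ (Fin k → ℤ) T)) = k := by
    rw [((LinearMap.fst ℤ (Fin k → ℤ) T).quotKerEquivOfSurjective
      LinearMap.fst_surjective).finrank_eq]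
    simp
  have h2 : finrank ℤ (LinearMap.ker (LinearMap.fst ℤ (Fin k → ℤ) T)) = 0 := by
    have : Finite (LinearMap.ker (LinearMap.fst ℤ (Fin k → ℤ) T)) := by
      refine Finite.of_injective (fun x => x.1.2) ?_
      rintro ⟨⟨a, b⟩, ha⟩ ⟨⟨c, d⟩, hc⟩ h
      simp only [LinearMap.mem_ker, LinearMap.fst_apply] at ha hc
      simp only at h
      subst ha hc h
      rfl
    exact finrank_int_eq_zero_of_finite _
  omega

end aux

theorem card_quot_zsmul (p : ℕ) [Fact p.Prime] (A : Type*) [AddCommGroup A] [Module.Finite ℤ A] :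
    Finite (A ⧸ (zsmulAddGroupHom (p : ℤ) : A →+ A).range) ∧
    Finite (zsmulAddGroupHom (p : ℤ) : A →+ A).ker ∧
    Nat.card (A ⧸ (zsmulAddGroupHom (p : ℤ) : A →+ A).range) =
      p ^ Module.finrank ℤ A * Nat.card (zsmulAddGroupHom (p : ℤ) : A →+ A).ker := by
  have hp : (p : ℤ) ≠ 0 := by exact_mod_cast (Fact.out : p.Prime).ne_zero
  have hp0 : p ≠ 0 := (Fact.out : p.Prime).ne_zero
  have : AddGroup.FG A := Module.Finite.iff_addGroup_fg.mp inferInstance
  obtain ⟨k, ι, hι, q, hq, e, ⟨f⟩⟩ := AddCommGroup.equiv_free_prod_directSum_zmod A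
  have : ∀ i, NeZero (q i ^ e i) := fun i => ⟨pow_ne_zero _ (hq i).ne_zero⟩
  have : Finite (DirectSum ι fun i => ZMod (q i ^ e i)) :=
    Finite.of_equiv _ (DirectSum.addEquivProd (fun i => ZMod (q i ^ e i))).symm.toEquiv
  set T := DirectSum ι fun i => ZMod (q i ^ e i) with hT
  let g : A ≃+ (Fin k → ℤ) × T :=
    f.trans (AddEquiv.prodCongr (Finsupp.linearEquivFunOnFinite ℤ ℤ (Fin k)).toAddEquiv
      (AddEquiv.refl T))
  have hrank : Module.finrank ℤ A = k := by
    rw [g.toIntLinearEquiv.finrank_eq]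
    exact finrank_int_prod_finite k T
  have hidx : (zsmulAddGroupHom (p : ℤ) : A →+ A).range.index =
      p ^ k * Nat.card (zsmulAddGroupHom (p : ℤ) : T →+ T).ker := by
    rw [index_range_zsmul_congr _ g, range_zsmul_prod, AddSubgroup.index_prod,
      index_range_zsmul_pi, index_range_eq_card_ker_of_finite]
    simp
  have hker : Nat.card (zsmulAddGroupHom (p : ℤ) : A →+ A).ker =
      Nat.card (zsmulAddGroupHom (p : ℤ) : T →+ T).ker := by
    rw [card_ker_zsmul_congr _ g, ker_zsmul_prod, ker_zsmul_pi hp,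
      Nat.card_congr (AddSubgroup.prodEquiv _ _).toEquiv, Nat.card_prod]
    simp
  have hTpos : 0 < Nat.card (zsmulAddGroupHom (p : ℤ) : T →+ T).ker := Nat.card_pos
  have hmain : Nat.card (A ⧸ (zsmulAddGroupHom (p : ℤ) : A →+ A).range) =
      p ^ Module.finrank ℤ A * Nat.card (zsmulAddGroupHom (p : ℤ) : A →+ A).ker := by
    rw [hrank, hker]
    exact hidx
  refine ⟨?_, ?_, hmain⟩
  · apply Nat.finite_of_card_ne_zero
    rw [hmain, hker]
    exact (Nat.mul_pos (pow_pos (Nat.pos_of_ne_zero hp0) _) hTpos).ne'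
  · apply Nat.finite_of_card_ne_zero
    rw [hker]
    exact hTpos.ne'

end Fermat.Agent.S55.NIT.FI
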