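/-
S55 / NIT / FI, block FI-3 (task 553, helper263).  Pure algebra:
a homomorphism `A → ℤ^ι` with finitely generated kernel whose image contains a nonzero multiple of
every standard basis vector: `A` is finitely generated and
`finrank A = finrank (ker f) + card ι`.
-/
import Mathlib

set_option autoImplicit false

namespace Fermat.Agent.S55.NIT.FI

theorem finrank_range_eq_card {A ι : Type*} [AddCommGroup A] [Fintype ι] [DecidableEq ι]
    (f : A →ₗ[ℤ] (ι → ℤ))
    (hf : ∀ i : ι, ∃ (a : A) (h : ℤ), h ≠ 0 ∧ f a = Pi.single i h) :
    Module.finrank ℤ (LinearMap.range f) = Fintype.card ι := by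
  apply le_antisymm
  · have := Submodule.finrank_le (LinearMap.range f)
    simpa using this
  · choose a h hh hfa using hf
    -- the family `f (a i)` in the range is linearly independent
    let v : ι → LinearMap.range f := fun i => ⟨f (a i), LinearMap.mem_range_self f (a i)⟩
    have hv : LinearIndependent ℤ v := by
      apply LinearIndependent.of_comp (LinearMap.range f).subtype
      rw [Fintype.linearIndependent_iff]
      intro g hg i
      have h1 := congrFun hg i
      simp only [Function.comp, v, Submodule.subtype_apply, hfa, Finset.sum_apply, Pi.smul_apply,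
        Pi.zero_apply, smul_eq_mul] at h1
      rw [Finset.sum_eq_single i] at h1
      · simp only [Pi.single_eq_same] at h1
        rcases mul_eq_zero.mp h1 with h2 | h2
        · exact h2
        · exact absurd h2 (hh i)
      · intro j _ hj
        rw [Pi.single_eq_of_ne (Ne.symm hj), mul_zero]
      · intro hi
        exact absurd (Finset.mem_univ i) hi
    exact hv.fintype_card_le_finrank

theorem finite_and_finrank_of_hom {A ι : Type*} [AddCommGroup A] [Fintype ι] [DecidableEq ι]
    (f : A →ₗ[ℤ] (ι → ℤ)) [Module.Finite ℤ (LinearMap.ker f)]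
    (hf : ∀ i : ι, ∃ (a : A) (h : ℤ), h ≠ 0 ∧ f a = Pi.single i h) :
    Module.Finite ℤ A ∧
      Module.finrank ℤ A = Module.finrank ℤ (LinearMap.ker f) + Fintype.card ι := by
  have hrange : Module.Finite ℤ (LinearMap.range f) := inferInstance
  have hquot : Module.Finite ℤ (A ⧸ LinearMap.ker f) :=
    Module.Finite.equiv f.quotKerEquivRange.symm
  have hA : Module.Finite ℤ A := Module.Finite.of_submodule_quotient (LinearMap.ker f)
  refine ⟨hA, ?_⟩
  have h1 := Submodule.finrank_quotient_add_finrank (LinearMap.ker f)
  have h2 : Module.finrank ℤ (A ⧸ LinearMap.ker f) = Module.finrank ℤ (LinearMap.range f) :=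
    LinearEquiv.finrank_eq f.quotKerEquivRange
  rw [h2, finrank_range_eq_card f hf] at h1
  omega

end Fermat.Agent.S55.NIT.FI
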