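import Fermat.Agent.S55.NIT.FI.Defs

/-!
# S55-FI-1: an element of `Kˣ` with all finite valuations `1` is a unit of `𝓞 K`
(owner: helper270)
-/

set_option autoImplicit false

namespace Fermat.Agent.S55.NIT.FI

open NumberField IsDedekindDomain

theorem exists_unit_of_valuation_eq_one (K : Type*) [Field K] [NumberField K] (x : Kˣ)
    (h : ∀ v : Pl K, v.valuation K (x : K) = 1) :
    ∃ u : (𝓞 K)ˣ, algebraMap (𝓞 K) K (u : 𝓞 K) = (x : K) := by
  obtain ⟨a, ha⟩ := HeightOneSpectrum.mem_integers_of_valuation_le_one K (x : K)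
    (fun v => (h v).le)
  obtain ⟨b, hb⟩ := HeightOneSpectrum.mem_integers_of_valuation_le_one K ((x⁻¹ : Kˣ) : K)
    (fun v => by rw [Units.val_inv_eq_inv_val, map_inv₀, h v, inv_one])
  have hinj := IsFractionRing.injective (𝓞 K) K
  refine ⟨⟨a, b, ?_, ?_⟩, ha⟩
  · apply hinj
    rw [map_mul, ha, hb, map_one, Units.mul_inv]
  · apply hinj
    rw [map_mul, ha, hb, map_one, Units.inv_mul]

end Fermat.Agent.S55.NIT.FI
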