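/-
S55 / NIT / FI-4 : Dirichlet's S-unit theorem.
-/
import Fermat.Agent.S55.NIT.FI.Defs
import Fermat.Agent.S55.NIT.FI.UnitOfVal
import Fermat.Agent.S55.NIT.FI.PrimePow
import Fermat.Agent.S55.NIT.FI.RankAlg

set_option autoImplicit false
set_option linter.style.haveILetI false

namespace Fermat.Agent.S55.NIT.FI

open NumberField IsDedekindDomain

section

variable (K : Type*) [Field K] [NumberField K] (S : Finset (Pl K))

/-- The vector of the valuations at the primes of `S` of an `S`-unit. -/
noncomputable def sUnitVal : Additive (sU K (S : Set (Pl K))) →ₗ[ℤ] (S → ℤ) :=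
  AddMonoidHom.toIntLinearMap
    { toFun := fun x v => Multiplicative.toAdd
        ((v : Pl K).valuationOfNeZero ((Additive.toMul x : sU K (S : Set (Pl K))) : Kˣ))
      map_zero' := by
        funext v
        simp
      map_add' := fun x y => by
        funext v
        simp }

theorem sUnitVal_apply (x : Additive (sU K (S : Set (Pl K)))) (v : S) :
    sUnitVal K S x v = Multiplicative.toAdd
      ((v : Pl K).valuationOfNeZero ((Additive.toMul x : sU K (S : Set (Pl K))) : Kˣ)) := rfl

/-- Units of the ring of integers are `S`-units. -/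
noncomputable def unitsToSUnit : (𝓞 K)ˣ →* sU K (S : Set (Pl K)) :=
  (Units.map (algebraMap (𝓞 K) K : 𝓞 K →* K)).codRestrict _ (fun u v _ => by
    rw [← HeightOneSpectrum.valuationOfNeZero_eq, HeightOneSpectrum.valuation_of_unit_eq]
    rfl)

theorem unitsToSUnit_coe (u : (𝓞 K)ˣ) :
    (((unitsToSUnit K S u : sU K (S : Set (Pl K))) : Kˣ) : K) = algebraMap (𝓞 K) K (u : 𝓞 K) := rfl

/-- The kernel of the valuation vector is the group of units. -/
noncomputable def unitsEquivKer : Additive (𝓞 K)ˣ ≃ₗ[ℤ] LinearMap.ker (sUnitVal K S) :=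
  LinearEquiv.ofBijective
    (LinearMap.codRestrict _ (AddMonoidHom.toIntLinearMap (MonoidHom.toAdditive (unitsToSUnit K S)))
      (fun u => by
        rw [LinearMap.mem_ker]
        funext v
        rw [sUnitVal_apply]
        have : (v : Pl K).valuationOfNeZero
            (Units.map (algebraMap (𝓞 K) K : 𝓞 K →* K) (Additive.toMul u)) = 1 :=
          HeightOneSpectrum.valuation_of_unit_eq _ _
        exact congrArg Multiplicative.toAdd this))
    (by
      constructor
      · intro u u' h
        have h1 := congrArg (fun z : LinearMap.ker (sUnitVal K S) =>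
          (((Additive.toMul (z : Additive (sU K (S : Set (Pl K)))) :
            sU K (S : Set (Pl K))) : Kˣ) : K)) h
        have h2 : algebraMap (𝓞 K) K ((Additive.toMul u : (𝓞 K)ˣ) : 𝓞 K) =
            algebraMap (𝓞 K) K ((Additive.toMul u' : (𝓞 K)ˣ) : 𝓞 K) := h1
        have h3 := (IsFractionRing.injective (𝓞 K) K) h2
        exact Additive.toMul.injective (Units.ext h3)
      · rintro ⟨x, hx⟩
        rw [LinearMap.mem_ker] at hx
        have hall : ∀ v : Pl K, v.valuation K
            ((((Additive.toMul x : sU K (S : Set (Pl K))) : Kˣ)) : K) = 1 := by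
          intro v
          by_cases hv : v ∈ S
          · have h1 := congrFun hx ⟨v, hv⟩
            rw [sUnitVal_apply] at h1
            rw [← HeightOneSpectrum.valuationOfNeZero_eq]
            have h2 : v.valuationOfNeZero ((Additive.toMul x : sU K (S : Set (Pl K))) : Kˣ) = 1 :=
              Multiplicative.toAdd.injective h1
            rw [h2]
            rfl
          · exact (Additive.toMul x).2 v (by simpa using hv)
        obtain ⟨u, hu⟩ := exists_unit_of_valuation_eq_one K _ hall
        refine ⟨Additive.ofMul u, ?_⟩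
        apply Subtype.ext
        apply Additive.toMul.injective
        apply Subtype.ext
        apply Units.ext
        exact hu)

theorem sUnitVal_exists_single [DecidableEq S] (i : S) :
    ∃ (a : Additive (sU K (S : Set (Pl K)))) (h : ℤ), h ≠ 0 ∧ sUnitVal K S a = Pi.single i h := by
  obtain ⟨c, h, hh, hc, hc'⟩ := exists_generator_pow K (i : Pl K)
  have hmem : c ∈ sU K (S : Set (Pl K)) := by
    intro v hv
    apply hc'
    rintro rfl
    exact hv (by simp)
  refine ⟨Additive.ofMul ⟨c, hmem⟩, -(h : ℤ), by omega, ?_⟩
  funext j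
  rw [sUnitVal_apply]
  by_cases hj : j = i
  · subst hj
    rw [Pi.single_eq_same]
    have h1 : (((j : Pl K).valuationOfNeZero c : Multiplicative ℤ) : WithZero (Multiplicative ℤ)) =
        ((Multiplicative.ofAdd (-(h : ℤ)) : Multiplicative ℤ) : WithZero (Multiplicative ℤ)) := by
      rw [HeightOneSpectrum.valuationOfNeZero_eq, hc]
      rfl
    have h2 := WithZero.coe_inj.1 h1
    show Multiplicative.toAdd ((j : Pl K).valuationOfNeZero c) = _
    rw [h2]
    rfl
  · rw [Pi.single_eq_of_ne hj]
    have h1 : (((j : Pl K).valuationOfNeZero c : Multiplicative ℤ) : WithZero (Multiplicative ℤ)) =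
        ((1 : Multiplicative ℤ) : WithZero (Multiplicative ℤ)) := by
      rw [HeightOneSpectrum.valuationOfNeZero_eq, hc' _ (fun h => hj (Subtype.ext h))]
      rfl
    have h2 := WithZero.coe_inj.1 h1
    show Multiplicative.toAdd ((j : Pl K).valuationOfNeZero c) = _
    rw [h2]
    rfl

end

theorem sUnit_finite (K : Type*) [Field K] [NumberField K] (S : Finset (Pl K)) :
    Module.Finite ℤ (Additive (sU K (S : Set (Pl K)))) := by
  classical
  haveI : Module.Finite ℤ (LinearMap.ker (sUnitVal K S)) := Module.Finite.equiv (unitsEquivKer K S)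
  exact (finite_and_finrank_of_hom (sUnitVal K S) (sUnitVal_exists_single K S)).1

theorem sUnit_finrank (K : Type*) [Field K] [NumberField K] (S : Finset (Pl K)) :
    Module.finrank ℤ (Additive (sU K (S : Set (Pl K)))) = Units.rank K + S.card := by
  classical
  haveI : Module.Finite ℤ (LinearMap.ker (sUnitVal K S)) := Module.Finite.equiv (unitsEquivKer K S)
  rw [(finite_and_finrank_of_hom (sUnitVal K S) (sUnitVal_exists_single K S)).2,
    ← (unitsEquivKer K S).finrank_eq, Units.finrank_eq, Fintype.card_coe]

end Fermat.Agent.S55.NIT.FI
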