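/-
S55 / NIT / FI-11 : `ClassGen` is monotone, and every finite set of primes is contained in a
finite set `S` with `Cl_S(K) = 1`.   Owner: helper234.
-/
import Fermat.Agent.S55.NIT.FI.Defs

set_option autoImplicit false

namespace Fermat.Agent.S55.NIT.FI

open NumberField IsDedekindDomain

theorem ClassGen.mono {K : Type*} [Field K] [NumberField K] {S S' : Set (Pl K)} (h : S ⊆ S')
    (hS : ClassGen K S) : ClassGen K S' := by
  intro v hv
  obtain ⟨c, hc, hc'⟩ := hS v (fun hv' => hv (h hv'))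
  exact ⟨c, hc, fun v' hv' hne => hc' v' (fun h' => hv' (h h')) hne⟩

namespace ExistsS

/-- if `(a) = v * J` with `v ∤ J`, then `v(a) = exp (-1)`. -/
theorem intValuation_eq_exp_neg_one {R : Type*} [CommRing R] [IsDedekindDomain R]
    (v : HeightOneSpectrum R) (J : Ideal R) (hJ : ¬ v.asIdeal ∣ J) (a : R)
    (ha : Ideal.span {a} = v.asIdeal * J) : v.intValuation a = WithZero.exp (-1 : ℤ) := by
  apply le_antisymm
  · have := (v.intValuation_le_pow_iff_dvd a 1).2 (by rw [pow_one, ha]; exact Dvd.intro _ rfl)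
    simpa using this
  · have h2 : ¬ v.asIdeal ^ 2 ∣ Ideal.span {a} := by
      rw [ha, pow_two]
      intro h
      exact hJ ((mul_dvd_mul_iff_left v.ne_bot).1 h)
    have := (v.exp_le_intValuation_iff_emultiplicity_le (r := a) (n := 1)).2 (by
      have h3 := emultiplicity_lt_iff_not_dvd.2 h2
      have h4 : emultiplicity v.asIdeal (Ideal.span {a}) < ((1 : ℕ) : ℕ∞) + 1 := by
        simpa [one_add_one_eq_two] using h3
      exact ENat.lt_natCast_add_one_iff.1 h4)
    simpa using this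

/-- if `(a) = v * J` and `v' ≠ v`, `v' ∤ J`, then `v'(a) = 1`. -/
theorem intValuation_eq_one {R : Type*} [CommRing R] [IsDedekindDomain R]
    (v v' : HeightOneSpectrum R) (hne : v' ≠ v) (J : Ideal R) (hJ : ¬ v'.asIdeal ∣ J) (a : R)
    (ha : Ideal.span {a} = v.asIdeal * J) : v'.intValuation a = 1 := by
  refine le_antisymm (v'.intValuation_le_one a) (not_lt.1 ?_)
  rw [v'.intValuation_lt_one_iff_dvd, ha]
  intro h
  rcases (v'.prime.dvd_or_dvd h) with h | h
  · apply hne
    have hle : v.asIdeal ≤ v'.asIdeal := Ideal.le_of_dvd h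
    have := (v.isMaximal.eq_of_le v'.isPrime.ne_top hle)
    exact HeightOneSpectrum.ext this.symm
  · exact hJ h

end ExistsS

theorem exists_classGen (K : Type*) [Field K] [NumberField K] (S₀ : Finset (Pl K)) :
    ∃ S : Finset (Pl K), S₀ ⊆ S ∧ ClassGen K (S : Set (Pl K)) := by
  classical
  choose J hJ using (ClassGroup.mk0_surjective (R := 𝓞 K))
  have hfin : ∀ C : ClassGroup (𝓞 K), {v : Pl K | v.asIdeal ∣ (J C : Ideal (𝓞 K))}.Finite :=
    fun C => Ideal.finite_factors (nonZeroDivisors.coe_ne_zero (J C))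
  refine ⟨S₀ ∪ Finset.univ.biUnion (fun C => (hfin C).toFinset), Finset.subset_union_left, ?_⟩
  intro v hv
  have hv' : ∀ (v' : Pl K), v' ∉ ((S₀ ∪ Finset.univ.biUnion (fun C => (hfin C).toFinset) :
      Finset (Pl K)) : Set (Pl K)) → ∀ C, ¬ v'.asIdeal ∣ (J C : Ideal (𝓞 K)) := by
    intro v' h C hd
    apply h
    simp only [Finset.coe_union, Set.mem_union, Finset.mem_coe, Finset.mem_biUnion,
      Finset.mem_univ, true_and, Set.Finite.mem_toFinset, Set.mem_ofPred_eq]
    exact Or.inr ⟨C, hd⟩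
  have hv0 : v.asIdeal ∈ nonZeroDivisors (Ideal (𝓞 K)) := mem_nonZeroDivisors_of_ne_zero v.ne_bot
  set C : ClassGroup (𝓞 K) := (ClassGroup.mk0 ⟨v.asIdeal, hv0⟩)⁻¹ with hC
  have h1 : ClassGroup.mk0 (⟨v.asIdeal, hv0⟩ * J C) = 1 := by
    rw [map_mul, hJ, hC, mul_inv_cancel]
  have hp : (v.asIdeal * (J C : Ideal (𝓞 K))).IsPrincipal := by
    have := (ClassGroup.mk0_eq_one_iff (R := 𝓞 K)
      (I := v.asIdeal * (J C : Ideal (𝓞 K)))
      (mul_mem hv0 (J C).2)).1 h1
    exact this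
  obtain ⟨a, ha⟩ := hp.principal
  have ha' : Ideal.span {a} = v.asIdeal * (J C : Ideal (𝓞 K)) := ha.symm
  have ha0 : a ≠ 0 := by
    rintro rfl
    have h0 : v.asIdeal * (J C : Ideal (𝓞 K)) = ⊥ := by
      rw [← ha']; simp
    exact (mul_ne_zero v.ne_bot (nonZeroDivisors.coe_ne_zero (J C))) h0
  have hc0 : algebraMap (𝓞 K) K a ≠ 0 := by
    simpa using ha0
  refine ⟨Units.mk0 (algebraMap (𝓞 K) K a) hc0, ?_, ?_⟩
  · rw [Units.val_mk0, HeightOneSpectrum.valuation_of_algebraMap]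
    exact ExistsS.intValuation_eq_exp_neg_one v _ (hv' v hv C) a ha'
  · intro v' hv'S hne
    rw [Units.val_mk0, HeightOneSpectrum.valuation_of_algebraMap]
    exact ExistsS.intValuation_eq_one v v' hne _ (hv' v' hv'S C) a ha'

end Fermat.Agent.S55.NIT.FI
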