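/-
S55 / NIT / FI-12, abstract core: the `G`-module `Additive U` attached to a `σ`-stable subgroup
`U` of `Lˣ`, for a cyclic Galois extension `L/K` of degree `p` with generator `σ`.
-/
import Mathlib

set_option autoImplicit false
set_option maxHeartbeats 400000

namespace Fermat.Agent.S55.NIT.FI.Core

section

variable {K L : Type*} [Field K] [Field L] [Algebra K L]

/-- the underlying element of `L` -/
def val {U : Subgroup Lˣ} (a : Additive U) : L := (((Additive.toMul a : U) : Lˣ) : L)

theorem val_injective {U : Subgroup Lˣ} : Function.Injective (val (U := U)) := by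
  intro a b h
  have h1 : ((Additive.toMul a : U) : Lˣ) = ((Additive.toMul b : U) : Lˣ) := Units.ext h
  have h2 : (Additive.toMul a : U) = Additive.toMul b := Subtype.ext h1
  exact Additive.toMul.injective h2

@[simp] theorem val_zero {U : Subgroup Lˣ} : val (0 : Additive U) = 1 := rfl

@[simp] theorem val_add {U : Subgroup Lˣ} (a b : Additive U) : val (a + b) = val a * val b := rfl

theorem val_ne_zero {U : Subgroup Lˣ} (a : Additive U) : val a ≠ 0 :=
  ((Additive.toMul a : U) : Lˣ).ne_zero

@[simp] theorem val_neg {U : Subgroup Lˣ} (a : Additive U) : val (-a) = (val a)⁻¹ := by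
  have h : val (-a) * val a = 1 := by rw [← val_add, neg_add_cancel, val_zero]
  exact eq_inv_of_mul_eq_one_left h

theorem val_sum {U : Subgroup Lˣ} {ι : Type*} (t : Finset ι) (f : ι → Additive U) :
    val (∑ i ∈ t, f i) = ∏ i ∈ t, val (f i) := by
  classical
  induction t using Finset.induction_on with
  | empty => simp
  | insert i t hi ih => rw [Finset.sum_insert hi, Finset.prod_insert hi, val_add, ih]

/-- iterates of an additive endomorphism, as additive homomorphisms -/
def iter {A : Type*} [AddCommGroup A] (s : A →+ A) : ℕ → (A →+ A)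
  | 0 => AddMonoidHom.id A
  | (i + 1) => s.comp (iter s i)

theorem iter_apply {A : Type*} [AddCommGroup A] (s : A →+ A) (i : ℕ) (a : A) :
    iter s i a = s^[i] a := by
  induction i with
  | zero => rfl
  | succ i ih => rw [Function.iterate_succ_apply', ← ih]; rfl

/-- the action of `σ` on `Additive U` -/
def act (σ : L ≃ₐ[K] L) (U : Subgroup Lˣ) (h8 : ∀ y ∈ U, Units.map (σ : L →* L) y ∈ U) :
    Additive U →+ Additive U :=
  MonoidHom.toAdditive
    (((Units.map (σ : L →* L)).comp U.subtype).codRestrict U (fun y => h8 y y.2))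

theorem val_act (σ : L ≃ₐ[K] L) (U : Subgroup Lˣ) (h8 : ∀ y ∈ U, Units.map (σ : L →* L) y ∈ U)
    (a : Additive U) : val (act σ U h8 a) = σ (val a) := rfl

theorem val_act_iterate (σ : L ≃ₐ[K] L) (U : Subgroup Lˣ)
    (h8 : ∀ y ∈ U, Units.map (σ : L →* L) y ∈ U) (i : ℕ) (a : Additive U) :
    val ((act σ U h8)^[i] a) = (σ ^ i) (val a) := by
  induction i with
  | zero => simp
  | succ i ih => rw [Function.iterate_succ_apply', val_act, ih, pow_succ', AlgEquiv.mul_apply]

end

section galois

variable {K L : Type*} [Field K] [Field L] [Algebra K L] [FiniteDimensional K L] [IsGalois K L]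

theorem orderOf_eq (p : ℕ) (hdeg : Module.finrank K L = p) (σ : L ≃ₐ[K] L)
    (hσ : ∀ τ : L ≃ₐ[K] L, τ ∈ Subgroup.zpowers σ) : orderOf σ = p := by
  rw [orderOf_eq_card_of_forall_mem_zpowers hσ, IsGalois.card_aut_eq_finrank, hdeg]

theorem prod_pow_eq_norm (p : ℕ) (hdeg : Module.finrank K L = p) (σ : L ≃ₐ[K] L)
    (hσ : ∀ τ : L ≃ₐ[K] L, τ ∈ Subgroup.zpowers σ) (y : L) :
    ∏ i ∈ Finset.range p, (σ ^ i) y = algebraMap K L (Algebra.norm K y) := by
  classical
  have ho := orderOf_eq p hdeg σ hσ
  rw [Algebra.norm_eq_prod_automorphisms]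
  refine Finset.prod_nbij (fun i => σ ^ i) (fun _ _ => Finset.mem_univ _) ?_ ?_ (fun _ _ => rfl)
  · intro i hi j hj hij
    refine pow_injOn_Iio_orderOf ?_ ?_ hij
    · rw [ho]; simpa using hi
    · rw [ho]; simpa using hj
  · intro τ _
    have h1 := (mem_zpowers_iff_mem_range_orderOf (x := σ) (y := τ)).mp (hσ τ)
    rw [ho] at h1
    obtain ⟨i, hi, rfl⟩ := Finset.mem_image.mp h1
    exact ⟨i, by simpa using hi, rfl⟩

theorem fixed_iff (σ : L ≃ₐ[K] L) (hσ : ∀ τ : L ≃ₐ[K] L, τ ∈ Subgroup.zpowers σ) (y : L) :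
    σ y = y ↔ y ∈ Set.range (algebraMap K L) := by
  rw [IsGalois.mem_range_algebraMap_iff_fixed]
  constructor
  · intro h τ
    have hstab : σ ∈ MulAction.stabilizer (L ≃ₐ[K] L) y := h
    have : τ ∈ MulAction.stabilizer (L ≃ₐ[K] L) y :=
      (Subgroup.zpowers_le.mpr hstab) (hσ τ)
    exact this
  · intro h
    exact h σ

/-- The abstract form of FI-12. -/
theorem exists_data (p : ℕ) (hdeg : Module.finrank K L = p)
    (σ : L ≃ₐ[K] L) (hσ : ∀ τ : L ≃ₐ[K] L, τ ∈ Subgroup.zpowers σ)
    (U : Subgroup Lˣ) (U₀ : Subgroup Kˣ)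
    (h8 : ∀ y ∈ U, Units.map (σ : L →* L) y ∈ U)
    (h9 : ∀ x : Kˣ, Units.map (algebraMap K L : K →* L) x ∈ U ↔ x ∈ U₀) :
    ∃ s D N : Additive U →+ Additive U,
      (∀ a, s^[p] a = a) ∧ (∀ a, D a = s a - a) ∧
      (∀ a, N a = ∑ i ∈ Finset.range p, s^[i] a) ∧
      (∀ a, (((Additive.toMul (s a) : U) : Lˣ) : L) = σ (((Additive.toMul a : U) : Lˣ) : L)) ∧
      Nonempty (D.ker ≃+ Additive U₀) ∧
      Nat.card (D.ker ⧸ N.range.addSubgroupOf D.ker) =
        Nat.card (U₀ ⧸ (U.map (Units.map (Algebra.norm K : L →* K))).subgroupOf U₀) ∧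
      (∀ a, N a = 0 ↔ Algebra.norm K (((Additive.toMul a : U) : Lˣ) : L) = 1) := by
  classical
  set s : Additive U →+ Additive U := act σ U h8 with hs
  set D : Additive U →+ Additive U := s - AddMonoidHom.id _ with hD
  set N : Additive U →+ Additive U := ∑ i ∈ Finset.range p, iter s i with hN
  have hDa : ∀ a, D a = s a - a := fun a => rfl
  have hNa : ∀ a, N a = ∑ i ∈ Finset.range p, s^[i] a := by
    intro a
    rw [hN, AddMonoidHom.finsetSum_apply]
    exact Finset.sum_congr rfl fun i _ => iter_apply s i a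
  have hvalN : ∀ a, val (N a) = algebraMap K L (Algebra.norm K (val a)) := by
    intro a
    rw [hNa, val_sum, ← prod_pow_eq_norm p hdeg σ hσ]
    exact Finset.prod_congr rfl fun i _ => val_act_iterate σ U h8 i a
  have hker : ∀ a, a ∈ D.ker ↔ σ (val a) = val a := by
    intro a
    rw [AddMonoidHom.mem_ker, hDa, sub_eq_zero, ← val_act σ U h8]
    exact ⟨fun h => congrArg val h, fun h => val_injective h⟩
  -- the embedding of `U₀`
  let ψ : U₀ →* U :=
    ((Units.map (algebraMap K L : K →* L)).comp U₀.subtype).codRestrict U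
      (fun x => (h9 x).mpr x.2)
  have hvalψ : ∀ x : Additive U₀, val (MonoidHom.toAdditive ψ x) =
      algebraMap K L (((Additive.toMul x : U₀) : Kˣ) : K) := fun _ => rfl
  let f : Additive U₀ →+ D.ker :=
    (MonoidHom.toAdditive ψ).codRestrict D.ker (fun x => by
      rw [hker, hvalψ]
      exact σ.commutes _)
  have hvalf : ∀ x : Additive U₀, val (f x : Additive U) =
      algebraMap K L (((Additive.toMul x : U₀) : Kˣ) : K) := fun _ => rfl
  have hfbij : Function.Bijective f := by
    constructor
    · intro x y hxy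
      have h1 : val (f x : Additive U) = val (f y : Additive U) := by rw [hxy]
      rw [hvalf, hvalf] at h1
      have h2 := (algebraMap K L).injective h1
      exact Additive.toMul.injective (Subtype.ext (Units.ext h2))
    · intro a
      obtain ⟨x, hx⟩ := (fixed_iff σ hσ _).mp ((hker a).mp a.2)
      have hx0 : x ≠ 0 := by
        rintro rfl
        rw [map_zero] at hx
        exact val_ne_zero _ hx.symm
      have hxU : Units.map (algebraMap K L : K →* L) (Units.mk0 x hx0) ∈ U := by
        have : Units.map (algebraMap K L : K →* L) (Units.mk0 x hx0) =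
            ((Additive.toMul (a : Additive U) : U) : Lˣ) := Units.ext hx
        rw [this]
        exact Subtype.mem _
      refine ⟨Additive.ofMul ⟨Units.mk0 x hx0, (h9 _).mp hxU⟩, ?_⟩
      apply Subtype.ext
      apply val_injective
      rw [hvalf]
      exact hx
  let e : Additive U₀ ≃+ D.ker := AddEquiv.ofBijective f hfbij
  have hvale : ∀ x : Additive U₀, val (e x : Additive U) =
      algebraMap K L (((Additive.toMul x : U₀) : Kˣ) : K) := hvalf
  -- range of `N` versus norms
  have hrange : ∀ x : Additive U₀, ((e x : Additive U) ∈ N.range) ↔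
      ((Additive.toMul x : U₀) : Kˣ) ∈ U.map (Units.map (Algebra.norm K : L →* K)) := by
    intro x
    constructor
    · rintro ⟨a, ha⟩
      refine ⟨((Additive.toMul a : U) : Lˣ), Subtype.mem _, ?_⟩
      apply Units.ext
      apply (algebraMap K L).injective
      rw [← hvale, ← ha, hvalN]
      rfl
    · rintro ⟨y, hy, hyx⟩
      refine ⟨Additive.ofMul ⟨y, hy⟩, ?_⟩
      apply val_injective
      rw [hvalN, hvale, ← hyx]
      rfl
  refine ⟨s, D, N, ?_, hDa, hNa, fun a => val_act σ U h8 a, ⟨e.symm⟩, ?_, ?_⟩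
  · intro a
    apply val_injective
    rw [val_act_iterate, ← orderOf_eq p hdeg σ hσ, pow_orderOf_eq_one]
    rfl
  · symm
    refine Nat.card_congr (Quotient.congr (Additive.ofMul.trans e.toEquiv) ?_)
    intro x y
    rw [QuotientGroup.leftRel_apply, QuotientAddGroup.leftRel_apply, Subgroup.mem_subgroupOf,
      AddSubgroup.mem_addSubgroupOf]
    have h1 : -(Additive.ofMul.trans e.toEquiv) x + (Additive.ofMul.trans e.toEquiv) y =
        e (Additive.ofMul (x⁻¹ * y)) := by
      simp only [Equiv.trans_apply, ofMul_mul, ofMul_inv, map_add, map_neg]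
      rfl
    rw [h1, hrange]
    rfl
  · intro a
    constructor
    · intro h
      have h1 := hvalN a
      rw [h, val_zero] at h1
      apply (algebraMap K L).injective
      rw [map_one]
      exact h1.symm
    · intro h
      apply val_injective
      rw [hvalN, val_zero]
      have : Algebra.norm K (val a) = 1 := h
      rw [this, map_one]

end galois

end Fermat.Agent.S55.NIT.FI.Core
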