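/-
S55 / NIT / FI, block FI-10: Hilbert 90 for `S`-units.
-/
import Fermat.Agent.S55.NIT.FI.GaloisVal
import Fermat.Agent.S14.Thaine.Hilbert90

set_option autoImplicit false

namespace Fermat.Agent.S55.NIT.FI

open NumberField IsDedekindDomain

section one

variable (K : Type*) [Field K] [NumberField K]

/-- a nonzero element is a unit at almost all primes -/
theorem h90_finite_valuation_ne_one (x : K) (hx : x ≠ 0) :
    {v : Pl K | v.valuation K x ≠ 1}.Finite := by
  refine ((HeightOneSpectrum.Support.finite (𝓞 K) x).union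
    (HeightOneSpectrum.Support.finite (𝓞 K) x⁻¹)).subset ?_
  intro v hv
  rcases lt_or_gt_of_ne hv with h | h
  · right
    show 1 < v.valuation K x⁻¹
    rw [map_inv₀]
    exact (one_lt_inv₀ (zero_lt_iff.2 (by simpa using hx))).2 h
  · left
    exact h

open Classical in
/-- prescribing valuations outside `S` when `Cl_S = 1` -/
theorem h90_exists_of_classGen (S : Set (Pl K)) (hcl : ClassGen K S) (T : Finset (Pl K))
    (hT : ∀ v ∈ T, v ∉ S) (m : Pl K → ℤ) :
    ∃ c : Kˣ, ∀ v : Pl K, v ∉ S →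
      v.valuation K (c : K) = if v ∈ T then WithZero.exp (m v) else 1 := by
  induction T using Finset.induction_on with
  | empty => exact ⟨1, fun v _ => by simp⟩
  | insert a T ha ih =>
    obtain ⟨c, hc⟩ := ih (fun v hv => hT v (Finset.mem_insert_of_mem hv))
    obtain ⟨π, hπ1, hπ2⟩ := hcl a (hT a (Finset.mem_insert_self a T))
    refine ⟨c * π ^ (-(m a)), fun v hv => ?_⟩
    rw [Units.val_mul, map_mul, hc v hv, Units.val_zpow_eq_zpow_val, map_zpow₀]
    by_cases hva : v = a
    · subst hva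
      rw [if_neg ha, if_pos (Finset.mem_insert_self _ _), hπ1, one_mul, ← WithZero.exp_zsmul]
      congr 1
      simp
    · rw [hπ2 v hv hva, one_zpow, mul_one]
      simp [Finset.mem_insert, hva]

end one

section two

variable (K L : Type*) [Field K] [NumberField K] [Field L] [NumberField L] [Algebra K L]

/-- the valuation of an element of `K` at an unramified prime of `L` -/
theorem h90_valuation_algebraMap (S : Set (Pl K)) (hur : UnramOutside K L S) (w : Pl L)
    (hw : w.under (𝓞 K) ∉ S) (x : K) :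
    w.valuation L (algebraMap K L x) = (w.under (𝓞 K)).valuation K x := by
  have : w.asIdeal.LiesOver (w.under (𝓞 K)).asIdeal := by
    rw [HeightOneSpectrum.under_asIdeal]
    infer_instance
  rw [← HeightOneSpectrum.valuation_liesOver L (w.under (𝓞 K)) w x, hur w hw, pow_one]

/-- FI-10 with the two statements of FI-8 as hypotheses. -/
theorem hilbert90_sUnits_aux [IsGalois K L]
    (hcomp : ∀ (σ : L ≃ₐ[K] L) (w : Pl L), ∃ w' : Pl L, w'.under (𝓞 K) = w.under (𝓞 K) ∧
      ∀ y : L, w'.valuation L y = w.valuation L (σ y))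
    (hgal : ∀ (w w' : Pl L), w.under (𝓞 K) = w'.under (𝓞 K) →
      ∃ σ : L ≃ₐ[K] L, ∀ y : L, w'.valuation L y = w.valuation L (σ y))
    (σ : L ≃ₐ[K] L) (hσ : ∀ τ : L ≃ₐ[K] L, τ ∈ Subgroup.zpowers σ)
    (S : Set (Pl K)) (hur : UnramOutside K L S) (hcl : ClassGen K S)
    (y : Lˣ) (hy : y ∈ sU L (above K L S)) (hN : Algebra.norm K (y : L) = 1) :
    ∃ z : Lˣ, z ∈ sU L (above K L S) ∧ (y : L) = σ (z : L) / (z : L) := by
  classical
  have hNinv : Algebra.norm K ((y : L)⁻¹) = 1 := by rw [Algebra.norm_inv, hN, inv_one]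
  obtain ⟨z0', hz0ne', hz0⟩ := Fermat.Agent.S14.Thaine.exists_mul_eq_of_norm_eq_one hσ hNinv
  obtain ⟨z0, rfl⟩ : ∃ z0 : Lˣ, (z0 : L) = z0' := ⟨Units.mk0 z0' hz0ne', rfl⟩
  have hz0ne : (z0 : L) ≠ 0 := z0.ne_zero
  have hσz0ne : σ (z0 : L) ≠ 0 := by simpa using hz0ne
  have hyz0 : (y : L) = σ (z0 : L) / (z0 : L) := by
    have hyne : (y : L) ≠ 0 := y.ne_zero
    rw [eq_div_iff hz0ne]
    calc (y : L) * (z0 : L) = (y : L) * ((y : L)⁻¹ * σ (z0 : L)) := by rw [hz0]
      _ = σ (z0 : L) := by rw [← mul_assoc, mul_inv_cancel₀ hyne, one_mul]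
  -- step 1: invariance under `σ`
  have h1 : ∀ w : Pl L, w.under (𝓞 K) ∉ S → w.valuation L (σ (z0 : L)) = w.valuation L (z0 : L) := by
    intro w hw
    have hy1 : w.valuation L (y : L) = 1 := hy w hw
    rw [hyz0, map_div₀, div_eq_one_iff_eq (by simpa using hz0ne)] at hy1
    exact hy1
  -- step 2: invariance under the powers of `σ`
  have h2 : ∀ (n : ℕ) (w : Pl L), w.under (𝓞 K) ∉ S →
      w.valuation L ((σ ^ n) (z0 : L)) = w.valuation L (z0 : L) := by
    intro n
    induction n with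
    | zero => intro w _; simp
    | succ n ih =>
      intro w hw
      obtain ⟨w', hw', hval⟩ := hcomp (σ ^ n) w
      rw [pow_succ, AlgEquiv.mul_apply, ← hval, h1 w' (hw' ▸ hw), hval, ih w hw]
  have h3 : ∀ (τ : L ≃ₐ[K] L) (w : Pl L), w.under (𝓞 K) ∉ S →
      w.valuation L (τ (z0 : L)) = w.valuation L (z0 : L) := by
    intro τ w hw
    obtain ⟨n, rfl⟩ := (mem_powers_iff_mem_zpowers.2 (hσ τ))
    exact h2 n w hw
  -- step 3: the valuation only depends on the prime below
  have h4 : ∀ w w' : Pl L, w.under (𝓞 K) ∉ S → w.under (𝓞 K) = w'.under (𝓞 K) →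
      w'.valuation L (z0 : L) = w.valuation L (z0 : L) := by
    intro w w' hw hww'
    obtain ⟨τ, hτ⟩ := hgal w w' hww'
    rw [hτ, h3 τ w hw]
  -- step 4: the correcting element of `K`
  let m : Pl K → ℤ := fun v =>
    if h : ∃ w : Pl L, w.under (𝓞 K) = v then WithZero.log (h.choose.valuation L (z0 : L)) else 0
  have hm : ∀ w : Pl L, w.under (𝓞 K) ∉ S →
      w.valuation L (z0 : L) = WithZero.exp (m (w.under (𝓞 K))) := by
    intro w hw
    have h : ∃ w' : Pl L, w'.under (𝓞 K) = w.under (𝓞 K) := ⟨w, rfl⟩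
    have hne : h.choose.valuation L (z0 : L) ≠ 0 := by simpa using hz0ne
    simp only [m, dif_pos h]
    rw [WithZero.exp_log hne]
    exact h4 _ _ (h.choose_spec.symm ▸ hw) h.choose_spec
  have hfin : {w : Pl L | w.valuation L (z0 : L) ≠ 1}.Finite :=
    h90_finite_valuation_ne_one L _ hz0ne
  let T : Finset (Pl K) :=
    (hfin.toFinset.image (fun w : Pl L => w.under (𝓞 K))).filter (fun v => v ∉ S)
  obtain ⟨c, hc⟩ := h90_exists_of_classGen K S hcl T
    (fun v hv => (Finset.mem_filter.1 hv).2) m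
  have hcw : ∀ w : Pl L, w.under (𝓞 K) ∉ S →
      w.valuation L (algebraMap K L (c : K)) = w.valuation L (z0 : L) := by
    intro w hw
    rw [h90_valuation_algebraMap K L S hur w hw, hc _ hw]
    split_ifs with hT
    · exact (hm w hw).symm
    · by_contra hne
      apply hT
      refine Finset.mem_filter.2 ⟨Finset.mem_image.2 ⟨w, ?_, rfl⟩, hw⟩
      rw [Set.Finite.mem_toFinset]
      exact fun h => hne h.symm
  refine ⟨z0 * (Units.map (algebraMap K L : K →* L) c)⁻¹, ?_, ?_⟩
  · intro w hw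
    have hcne : w.valuation L (algebraMap K L (c : K)) ≠ 0 := by
      simp
    rw [Units.val_mul, map_mul, Units.val_inv_eq_inv_val, map_inv₀]
    show w.valuation L (z0 : L) * (w.valuation L (algebraMap K L (c : K)))⁻¹ = 1
    rw [hcw w hw]
    exact mul_inv_cancel₀ (by simpa using hz0ne)
  · have hcne : algebraMap K L (c : K) ≠ 0 := by simp
    rw [Units.val_mul, Units.val_inv_eq_inv_val]
    show (y : L) = σ ((z0 : L) * (algebraMap K L (c : K))⁻¹) /
      ((z0 : L) * (algebraMap K L (c : K))⁻¹)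
    rw [map_mul, map_inv₀, AlgEquiv.commutes, hyz0]
    field_simp

theorem hilbert90_sUnits [IsGalois K L] (σ : L ≃ₐ[K] L) (hσ : ∀ τ : L ≃ₐ[K] L, τ ∈ Subgroup.zpowers σ)
    (S : Set (Pl K)) (hur : UnramOutside K L S) (hcl : ClassGen K S)
    (y : Lˣ) (hy : y ∈ sU L (above K L S)) (hN : Algebra.norm K (y : L) = 1) :
    ∃ z : Lˣ, z ∈ sU L (above K L S) ∧ (y : L) = σ (z : L) / (z : L) :=
  hilbert90_sUnits_aux K L (exists_valuation_comp K L) (exists_galois_of_under_eq K L)
    σ hσ S hur hcl y hy hN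

end two

end Fermat.Agent.S55.NIT.FI
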