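/-
S55 / NIT / FI-9 : base change of `S`-units and norms of `S`-units.
-/
import Fermat.Agent.S55.NIT.FI.GaloisVal

set_option autoImplicit false

namespace Fermat.Agent.S55.NIT.FI

open NumberField IsDedekindDomain

variable (K L : Type*) [Field K] [NumberField K] [Field L] [NumberField L] [Algebra K L]

theorem BaseChange.mem_sU_iff {K : Type*} [Field K] [NumberField K] (S : Set (Pl K)) (x : Kˣ) :
    x ∈ sU K S ↔ ∀ v : Pl K, v ∉ S → v.valuation K (x : K) = 1 := Iff.rfl

theorem BaseChange.valuation_algebraMap_eq_one_iff (w : Pl L) (x : K) :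
    w.valuation L (algebraMap K L x) = 1 ↔ (w.under (𝓞 K)).valuation K x = 1 := by
  have : w.asIdeal.LiesOver (w.under (𝓞 K)).asIdeal := ⟨rfl⟩
  have he := Ideal.IsDedekindDomain.ramificationIdx'_ne_zero_of_liesOver w.asIdeal (w.under (𝓞 K)).ne_bot
  rw [← HeightOneSpectrum.valuation_liesOver L (w.under (𝓞 K)) w x]
  constructor
  · intro h
    exact (pow_eq_one_iff.mp h).resolve_right he
  · intro h
    rw [h, one_pow]

theorem BaseChange.exists_under_eq (v : Pl K) : ∃ w : Pl L, w.under (𝓞 K) = v := by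
  have : v.asIdeal.IsMaximal := v.isMaximal
  obtain ⟨P, hPm, hP⟩ := Ideal.exists_maximal_ideal_liesOver_of_isIntegral (S := 𝓞 L) v.asIdeal
  have hne : P ≠ ⊥ := by
    rintro rfl
    apply v.ne_bot
    rw [hP.over]
    exact Ideal.under_bot (𝓞 K) (𝓞 L)
  refine ⟨⟨P, hPm.isPrime, hne⟩, ?_⟩
  ext1
  exact hP.over.symm

theorem map_algebraMap_mem_sU_iff (S : Set (Pl K)) (x : Kˣ) :
    Units.map (algebraMap K L : K →* L) x ∈ sU L (above K L S) ↔ x ∈ sU K S := by
  rw [BaseChange.mem_sU_iff, BaseChange.mem_sU_iff]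
  constructor
  · intro h v hv
    obtain ⟨w, rfl⟩ := BaseChange.exists_under_eq K L v
    exact (BaseChange.valuation_algebraMap_eq_one_iff K L w x).mp (h w hv)
  · intro h w hw
    exact (BaseChange.valuation_algebraMap_eq_one_iff K L w x).mpr (h _ hw)

theorem normImage_le [IsGalois K L] (S : Set (Pl K)) : normImage K L S ≤ sU K S := by
  rintro x ⟨y, hy, rfl⟩
  rw [← map_algebraMap_mem_sU_iff K L S]
  have hprod : Units.map (algebraMap K L : K →* L) (normU K L y) =
      ∏ σ : L ≃ₐ[K] L, Units.map (σ : L →* L) y := by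
    ext
    simp only [Units.coe_map, MonoidHom.coe_coe, Units.coe_prod]
    exact Algebra.norm_eq_prod_automorphisms K (y : L)
  rw [hprod]
  exact Subgroup.prod_mem _ fun σ _ => map_mem_sU K L σ S hy

end Fermat.Agent.S55.NIT.FI
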