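/-
S55 / NIT / FI-12 : the `G`-module `A = Additive L_S`.
-/
import Fermat.Agent.S55.NIT.FI.Defs
import Fermat.Agent.S55.NIT.FI.ModuleCore
import Fermat.Agent.S55.NIT.FI.GaloisVal
import Fermat.Agent.S55.NIT.FI.BaseChange

set_option autoImplicit false

namespace Fermat.Agent.S55.NIT.FI

open NumberField IsDedekindDomain

universe u

section three

variable (K L : Type u) [Field K] [NumberField K] [Field L] [NumberField L] [Algebra K L]

/-- the action of `σ` on `Additive L_S` together with the dictionary needed for Tate's lemma -/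
theorem exists_module_data [IsGalois K L] (p : ℕ) [Fact p.Prime] (hdeg : Module.finrank K L = p)
    (σ : L ≃ₐ[K] L) (hσ : ∀ τ : L ≃ₐ[K] L, τ ∈ Subgroup.zpowers σ) (S : Set (Pl K)) :
    ∃ s D N : Additive (sU L (above K L S)) →+ Additive (sU L (above K L S)),
      (∀ a, s^[p] a = a) ∧ (∀ a, D a = s a - a) ∧
      (∀ a, N a = ∑ i ∈ Finset.range p, s^[i] a) ∧
      (∀ a, (((Additive.toMul (s a) : sU L (above K L S)) : Lˣ) : L) =
        σ (((Additive.toMul a : sU L (above K L S)) : Lˣ) : L)) ∧
      Nonempty (D.ker ≃+ Additive (sU K S)) ∧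
      Nat.card (D.ker ⧸ N.range.addSubgroupOf D.ker) =
        Nat.card (sU K S ⧸ (normImage K L S).subgroupOf (sU K S)) ∧
      (∀ a, N a = 0 ↔
        Algebra.norm K (((Additive.toMul a : sU L (above K L S)) : Lˣ) : L) = 1) :=
  Core.exists_data p hdeg σ hσ (sU L (above K L S)) (sU K S)
    (fun _ hy => map_mem_sU K L σ S hy) (fun x => map_algebraMap_mem_sU_iff K L S x)

end three

end Fermat.Agent.S55.NIT.FI
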