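/-
S55 / NIT / FI-6 : unit ranks in a degree `p` extension of a field containing `μ_p`, `p` odd.
-/
import Fermat.Agent.S55.NIT.FI.Defs

set_option autoImplicit false

namespace Fermat.Agent.S55.NIT.FI

open NumberField IsDedekindDomain

/-- A number field containing a primitive `p`-th root of unity, `p` an odd prime, is totally
complex. -/
theorem isTotallyComplex_of_primitiveRoot (K : Type*) [Field K] [NumberField K] (p : ℕ)
    [Fact p.Prime] (hp2 : p ≠ 2) {ζ : K} (hζ : IsPrimitiveRoot ζ p) : IsTotallyComplex K := by
  refine ⟨fun v => ?_⟩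
  rw [← InfinitePlace.not_isReal_iff_isComplex]
  intro hv
  have hre : ComplexEmbedding.IsReal v.embedding := InfinitePlace.isReal_iff.mp hv
  have hodd : Odd p := (Fact.out : p.Prime).odd_of_ne_two hp2
  have h1 : (hre.embedding ζ) ^ p = 1 ^ p := by
    rw [← map_pow, hζ.pow_eq_one, map_one, one_pow]
  have h2 : hre.embedding ζ = 1 := hodd.strictMono_pow.injective h1
  have h3 : ζ = 1 := hre.embedding.injective (by rw [h2, map_one])
  exact hζ.ne_one (Fact.out : p.Prime).one_lt h3

/-- For a totally complex field, `2 (rank + 1)` is the degree. -/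
theorem two_mul_rank_succ (K : Type*) [Field K] [NumberField K] [IsTotallyComplex K] :
    2 * (Units.rank K + 1) = Module.finrank ℚ K := by
  have h1 : Units.rank K + 1 = Fintype.card (InfinitePlace K) := by
    have : 0 < Fintype.card (InfinitePlace K) := Fintype.card_pos
    unfold Units.rank
    omega
  rw [h1, InfinitePlace.card_eq_nrRealPlaces_add_nrComplexPlaces,
    IsTotallyComplex.nrRealPlaces_eq_zero, zero_add, IsTotallyComplex.finrank]

section two

variable (K L : Type*) [Field K] [NumberField K] [Field L] [NumberField L] [Algebra K L]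

theorem rank_succ_eq (p : ℕ) [Fact p.Prime] (hp2 : p ≠ 2) {ζ : K} (hζ : IsPrimitiveRoot ζ p)
    (hdeg : Module.finrank K L = p) : Units.rank L + 1 = p * (Units.rank K + 1) := by
  have : IsTotallyComplex K := isTotallyComplex_of_primitiveRoot K p hp2 hζ
  have : IsTotallyComplex L := isTotallyComplex_of_algebra K L
  have h1 := two_mul_rank_succ K
  have h2 := two_mul_rank_succ L
  have h3 : Module.finrank ℚ K * Module.finrank K L = Module.finrank ℚ L :=
    Module.finrank_mul_finrank ℚ K L
  rw [hdeg, ← h1, ← h2] at h3
  have h4 : 2 * (Units.rank L + 1) = 2 * (p * (Units.rank K + 1)) := by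
    rw [← h3]; ring
  exact Nat.eq_of_mul_eq_mul_left (by norm_num) h4

end two

end Fermat.Agent.S55.NIT.FI
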