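/-
S55 / NIT / FI-13 : the first inequality in idele-free form:
`|K_S / N L_S| * p = p ^ (number of non-split primes in S)`.
-/
import Fermat.Agent.S55.NIT.FI.SUnit
import Fermat.Agent.S55.NIT.FI.PhiFG
import Fermat.Agent.S55.NIT.FI.RankLK
import Fermat.Agent.S55.NIT.FI.CountAbove
import Fermat.Agent.S55.NIT.FI.Hilbert90S
import Fermat.Agent.S55.NIT.FI.Module

set_option autoImplicit false

namespace Fermat.Agent.S55.NIT.FI

open NumberField IsDedekindDomain

universe u

/-- the arithmetic at the end of the first inequality -/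
theorem numeric_core {p a cL cK rL rK ns rkK rkL sK sL : ℕ} (hp : p.Prime)
    (hcL : 0 < cL) (hcK : 0 < cK)
    (hT : a ^ (p - 1) * (p ^ rL * cL) * cK ^ p = 1 ^ (p - 1) * cL * (p ^ rK * cK) ^ p)
    (hrL : rL = rkL + sL) (hrK : rK = rkK + sK) (hrk : rkL + 1 = p * (rkK + 1))
    (hs : sL + (p - 1) * ns = p * sK) : a * p = p ^ ns := by
  have hp0 : 0 < p := hp.pos
  have hp1 : p - 1 ≠ 0 := by have := hp.two_le; omega
  -- cancel the torsion factors
  have h1 : a ^ (p - 1) * p ^ rL = p ^ (p * rK) := by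
    have h2 : (a ^ (p - 1) * p ^ rL) * (cL * cK ^ p) = p ^ (p * rK) * (cL * cK ^ p) := by
      have : (p ^ rK * cK) ^ p = p ^ (p * rK) * cK ^ p := by
        rw [mul_pow, ← pow_mul, mul_comm rK p]
      calc (a ^ (p - 1) * p ^ rL) * (cL * cK ^ p)
          = a ^ (p - 1) * (p ^ rL * cL) * cK ^ p := by ring
        _ = 1 ^ (p - 1) * cL * (p ^ rK * cK) ^ p := hT
        _ = p ^ (p * rK) * (cL * cK ^ p) := by rw [this]; ring
    exact Nat.eq_of_mul_eq_mul_right (by positivity) h2
  have hexp : rL + (p - 1) * ns = p * rK + (p - 1) := by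
    obtain ⟨q, rfl⟩ : ∃ q, p = q + 1 := ⟨p - 1, by omega⟩
    simp only [Nat.add_sub_cancel] at *
    subst hrL hrK
    nlinarith
  have h3 : (a * p) ^ (p - 1) * p ^ rL = (p ^ ns) ^ (p - 1) * p ^ rL := by
    calc (a * p) ^ (p - 1) * p ^ rL = (a ^ (p - 1) * p ^ rL) * p ^ (p - 1) := by
          rw [mul_pow]; ring
      _ = p ^ (p * rK + (p - 1)) := by rw [h1, ← pow_add]
      _ = p ^ (rL + (p - 1) * ns) := by rw [hexp]
      _ = (p ^ ns) ^ (p - 1) * p ^ rL := by
          rw [← pow_mul, ← pow_add]; congr 1; ring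
  have h4 : (a * p) ^ (p - 1) = (p ^ ns) ^ (p - 1) :=
    Nat.eq_of_mul_eq_mul_right (by positivity) h3
  exact Nat.pow_left_injective (n := p - 1) (by omega) h4

variable (K L : Type u) [Field K] [NumberField K] [Field L] [NumberField L] [Algebra K L]

theorem card_quot_normImage [IsGalois K L] (p : ℕ) [Fact p.Prime] (hp2 : p ≠ 2)
    (hT : TateLemma.{u} p) (hdeg : Module.finrank K L = p) {ζ : K} (hζ : IsPrimitiveRoot ζ p)
    (σ : L ≃ₐ[K] L) (hσ : ∀ τ : L ≃ₐ[K] L, τ ∈ Subgroup.zpowers σ)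
    (S : Finset (Pl K)) (hur : UnramOutside K L (S : Set (Pl K)))
    (hcl : ClassGen K (S : Set (Pl K))) :
    Nat.card (sU K (S : Set (Pl K)) ⧸ (normImage K L (S : Set (Pl K))).subgroupOf (sU K (S : Set (Pl K)))) * p
      = p ^ (nonsplit K L S).card := by
  classical
  have hp : p.Prime := Fact.out
  obtain ⟨s, D, N, hs, hD, hN, hsσ, ⟨e⟩, hcard, hN0⟩ :=
    exists_module_data K L p hdeg σ hσ (S : Set (Pl K))
  -- finiteness and rank of `A = Additive L_S`
  have hfin := above_finite K L S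
  have hcoe : ((hfin.toFinset : Finset (Pl L)) : Set (Pl L)) = above K L (S : Set (Pl K)) :=
    hfin.coe_toFinset
  have hAfin : Module.Finite ℤ (Additive (sU L (above K L (S : Set (Pl K))))) := by
    have := sUnit_finite L hfin.toFinset
    rwa [hcoe] at this
  have hArk : Module.finrank ℤ (Additive (sU L (above K L (S : Set (Pl K))))) =
      Units.rank L + (above K L (S : Set (Pl K))).ncard := by
    have := sUnit_finrank L hfin.toFinset
    rw [hcoe] at this
    rw [this, Set.ncard_eq_toFinset_card _ hfin]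
  obtain ⟨hA1, hA2, hA3⟩ := card_quot_zsmul p (Additive (sU L (above K L (S : Set (Pl K)))))
  -- the invariants
  have hKfin : Module.Finite ℤ (Additive (sU K (S : Set (Pl K)))) := sUnit_finite K S
  have hDfin : Module.Finite ℤ D.ker :=
    Module.Finite.equiv e.symm.toIntLinearEquiv
  have hDrk : Module.finrank ℤ D.ker = Units.rank K + S.card := by
    rw [← sUnit_finrank K S]
    exact LinearEquiv.finrank_eq e.toIntLinearEquiv
  obtain ⟨hB1, hB2, hB3⟩ := card_quot_zsmul p D.ker
  obtain ⟨hH0, hH1, -, hTate⟩ := hT _ s hs hA1 hA2 D N hD hN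
  -- `H^1` is trivial
  have hH1card : Nat.card (N.ker ⧸ D.range.addSubgroupOf N.ker) = 1 := by
    rw [Nat.card_eq_one_iff_unique]
    refine ⟨⟨fun x y => ?_⟩, ⟨0⟩⟩
    have key : ∀ x : N.ker ⧸ D.range.addSubgroupOf N.ker, x = 0 := by
      intro x
      induction x using QuotientAddGroup.induction_on with
      | H a =>
        rw [QuotientAddGroup.eq_zero_iff, AddSubgroup.mem_addSubgroupOf]
        have ha : N (a : Additive (sU L (above K L (S : Set (Pl K))))) = 0 := a.2
        obtain ⟨z, hz, hyz⟩ := hilbert90_sUnits K L σ hσ (S : Set (Pl K)) hur hcl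
          ((Additive.toMul (a : Additive (sU L (above K L (S : Set (Pl K))))) :
            sU L (above K L (S : Set (Pl K)))) : Lˣ) (SetLike.coe_mem _) ((hN0 _).mp ha)
        refine ⟨Additive.ofMul ⟨z, hz⟩, ?_⟩
        rw [hD]
        apply Additive.toMul.injective
        apply Subtype.ext
        apply Units.ext
        rw [toMul_sub, Subgroup.coe_div, Units.val_div_eq_div_val, hsσ, hyz]
        rfl
    rw [key x, key y]
  have hcL : 0 < Nat.card (zsmulAddGroupHom (p : ℤ) :
      Additive (sU L (above K L (S : Set (Pl K)))) →+ _).ker := Nat.card_pos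
  have hcK : 0 < Nat.card (zsmulAddGroupHom (p : ℤ) : D.ker →+ D.ker).ker := Nat.card_pos
  rw [hA3, hB3, hH1card, hcard] at hTate
  exact numeric_core hp hcL hcK hTate hArk hDrk (rank_succ_eq K L p hp2 hζ hdeg)
    (ncard_above K L p hdeg S)

end Fermat.Agent.S55.NIT.FI
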