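/-
S55 / NIT / FI : export of the first-inequality package in the vocabulary of `NIT/Defs.lean`
(nodes N0 `nrmS_le_sunit`, N1 `exists_big`, N2 `unit_norm_index` of `NIT.Nodes`).
-/
import Fermat.Agent.S55.NIT.Assembly
import Fermat.Agent.S55.NIT.FI.Main
import Fermat.Agent.S55.NIT.FI.ExistsS

set_option autoImplicit false

namespace Fermat.Agent.S55.NIT.FI

open NumberField IsDedekindDomain

universe u

section dict

variable (K L : Type*) [Field K] [NumberField K] [Field L] [NumberField L] [Algebra K L]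

theorem above_iff_under_eq (v : Pl K) (w : Pl L) : NIT.Above v w ↔ w.under (𝓞 K) = v := by
  constructor
  · intro h
    ext1
    exact h
  · rintro rfl
    rfl

theorem up_eq_above (S : Set (Pl K)) : NIT.up K L S = above K L S := by
  ext w
  constructor
  · rintro ⟨v, hv, hw⟩
    rw [above_iff_under_eq] at hw
    show w.under (𝓞 K) ∈ S
    rwa [hw]
  · intro hw
    exact ⟨w.under (𝓞 K), hw, rfl⟩

theorem nrmS_eq_normImage (S : Set (Pl K)) : NIT.nrmS K L S = normImage K L S := by
  unfold NIT.nrmS normImage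
  rw [up_eq_above]

/-- node N0 -/
theorem nrmS_le_sunit [IsGalois K L] (S : Set (Pl K)) : NIT.nrmS K L S ≤ NIT.sunit K S := by
  rw [nrmS_eq_normImage]
  exact normImage_le K L S

theorem ramificationIdx_eq_one_iff_unram (w : Pl L) :
    (w.under (𝓞 K)).asIdeal.ramificationIdx' w.asIdeal = 1 ↔
      ∀ x : K, w.valuation L (algebraMap K L x) = (w.under (𝓞 K)).valuation K x := by
  have : w.asIdeal.LiesOver (w.under (𝓞 K)).asIdeal := ⟨rfl⟩
  constructor
  · intro h x
    rw [← HeightOneSpectrum.valuation_liesOver L (w.under (𝓞 K)) w x, h, pow_one]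
  · intro h
    obtain ⟨x, hx⟩ := (w.under (𝓞 K)).valuation_exists_uniformizer K
    have h1 := HeightOneSpectrum.valuation_liesOver L (w.under (𝓞 K)) w x
    rw [h x, hx, ← WithZero.exp_nsmul, WithZero.exp_inj] at h1
    have h2 : ((w.under (𝓞 K)).asIdeal.ramificationIdx' w.asIdeal : ℤ) = 1 := by
      simpa using h1
    exact_mod_cast h2

theorem unramOutside_of_unram (S : Set (Pl K)) (h : ∀ v : Pl K, v ∉ S → NIT.Unram K L v) :
    UnramOutside K L S := by
  intro w hw
  rw [ramificationIdx_eq_one_iff_unram]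
  exact h _ hw w rfl

theorem unram_of_unramOutside (S : Set (Pl K)) (h : UnramOutside K L S) (v : Pl K) (hv : v ∉ S) :
    NIT.Unram K L v := by
  intro w hw
  rw [above_iff_under_eq] at hw
  subst hw
  exact (ramificationIdx_eq_one_iff_unram K L w).mp (h w hv)

theorem not_split_iff (v : Pl K) :
    ¬ NIT.Split K L v ↔ (v.asIdeal.primesOver (𝓞 L)).ncard = 1 := by
  rw [← ncard_aboveFibre]
  constructor
  · intro h
    obtain ⟨w, hw⟩ := BaseChange.exists_under_eq K L v
    rw [Set.ncard_eq_one]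
    refine ⟨w, Set.eq_singleton_iff_unique_mem.mpr ⟨hw, fun w' hw' => ?_⟩⟩
    by_contra hne
    exact h ⟨w', w, hne, (above_iff_under_eq K L v w').mpr hw', (above_iff_under_eq K L v w).mpr hw⟩
  · rintro h ⟨w, w', hne, hw, hw'⟩
    rw [Set.ncard_eq_one] at h
    obtain ⟨w₀, h₀⟩ := h
    have h1 : w ∈ aboveFibre K L v := (above_iff_under_eq K L v w).mp hw
    have h2 : w' ∈ aboveFibre K L v := (above_iff_under_eq K L v w').mp hw'
    rw [h₀, Set.mem_singleton_iff] at h1 h2
    exact hne (h1.trans h2.symm)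

theorem nsCount_eq (S : Finset (Pl K)) : NIT.nsCount K L S = (nonsplit K L S).card := by
  classical
  unfold NIT.nsCount nonsplit
  congr 1
  apply Finset.filter_congr
  intro v _
  exact not_split_iff K L v

/-- only finitely many primes of `L` are ramified over `K` -/
theorem finite_ramified :
    {w : Pl L | (w.under (𝓞 K)).asIdeal.ramificationIdx' w.asIdeal ≠ 1}.Finite := by
  have hne : differentIdeal (𝓞 K) (𝓞 L) ≠ ⊥ := differentIdeal_ne_bot
  have hfin : {w : Pl L | w.asIdeal ∣ differentIdeal (𝓞 K) (𝓞 L)}.Finite :=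
    Ideal.finite_factors hne
  refine hfin.subset fun w hw => ?_
  by_contra hnd
  apply hw
  have hp : (w.under (𝓞 K)).asIdeal ≠ ⊥ := (w.under (𝓞 K)).ne_bot
  have : (w.under (𝓞 K)).asIdeal.IsMaximal := (w.under (𝓞 K)).isMaximal
  apply Ideal.ramificationIdx'_spec
  · rw [pow_one, Ideal.map_le_iff_le_comap]
    exact le_rfl
  · intro H
    apply hnd
    have := pow_sub_one_dvd_differentIdeal (𝓞 K) (p := (w.under (𝓞 K)).asIdeal) w.asIdeal 2 hp
      (Ideal.dvd_iff_le.mpr H)
    simpa using this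

theorem finite_over (p : ℕ) (hp : p ≠ 0) : {v : Pl K | (p : 𝓞 K) ∈ v.asIdeal}.Finite := by
  have hne : Ideal.span {(p : 𝓞 K)} ≠ ⊥ := by
    rw [Ne, Ideal.span_singleton_eq_bot]
    exact_mod_cast hp
  refine (Ideal.finite_factors hne).subset fun v hv => ?_
  show v.asIdeal ∣ Ideal.span {(p : 𝓞 K)}
  rw [Ideal.dvd_span_singleton]
  exact hv

/-- node N1 -/
theorem exists_big (p : ℕ) (hp : p ≠ 0) (S₀ : Finset (Pl K)) :
    ∃ S : Finset (Pl K), S₀ ⊆ S ∧ NIT.Big K L p S := by
  classical
  set P : Finset (Pl K) := (finite_over K p hp).toFinset with hP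
  set R : Finset (Pl K) := (finite_ramified K L).toFinset.image
    (fun w : Pl L => w.under (𝓞 K)) with hR
  set S₁ : Finset (Pl K) := S₀ ∪ P ∪ R with hS₁
  obtain ⟨T, -, hT⟩ := exists_classGen L (∅ : Finset (Pl L))
  set S₂ : Finset (Pl K) := S₁ ∪ T.image (fun w : Pl L => w.under (𝓞 K)) with hS₂
  obtain ⟨S, hS₂S, hS⟩ := exists_classGen K S₂
  have hS₁S : S₁ ⊆ S := Finset.subset_union_left.trans hS₂S
  have hTS : (T : Set (Pl L)) ⊆ above K L (S : Set (Pl K)) := by
    intro w hw
    show w.under (𝓞 K) ∈ (S : Set (Pl K))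
    apply Finset.mem_coe.mpr
    apply hS₂S
    apply Finset.mem_union_right
    exact Finset.mem_image_of_mem _ (Finset.mem_coe.mp hw)
  have hL : ClassGen L (above K L (S : Set (Pl K))) := hT.mono hTS
  refine ⟨S, fun v hv => hS₁S (by simp [hS₁, hv]), ?_, ?_, ?_, ?_⟩
  · intro v hv
    apply hS₁S
    have : v ∈ P := (finite_over K p hp).mem_toFinset.mpr hv
    simp [hS₁, this]
  · apply unram_of_unramOutside K L (S : Set (Pl K))
    intro w hw
    by_contra hne
    apply hw
    apply Finset.mem_coe.mpr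
    apply hS₁S
    have : w.under (𝓞 K) ∈ R :=
      Finset.mem_image_of_mem _ ((finite_ramified K L).mem_toFinset.mpr hne)
    simp [hS₁, this]
  · exact hS
  · rw [up_eq_above]
    exact hL

end dict

section main

variable (K L : Type u) [Field K] [NumberField K] [Field L] [NumberField L] [Algebra K L]

/-- node N2 (first inequality: the unit norm index) -/
theorem unit_norm_index (p : ℕ) (hK : NIT.Kum K L p) (hT : TateLemma.{u} p)
    (S : Finset (Pl K)) (hS : NIT.Big K L p S) :
    1 ≤ NIT.nsCount K L S ∧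
      (NIT.nrmS K L (S : Set (Pl K))).relIndex (NIT.sunit K (S : Set (Pl K))) =
        p ^ (NIT.nsCount K L S - 1) := by
  have := hK.galois
  have : Fact p.Prime := ⟨hK.prime⟩
  obtain ⟨ζ, hζ⟩ := hK.zeta
  have hcard : Nat.card (L ≃ₐ[K] L) = p := by
    rw [IsGalois.card_aut_eq_finrank, hK.deg]
  have : IsCyclic (L ≃ₐ[K] L) := isCyclic_of_prime_card hcard
  obtain ⟨σ, hσ⟩ := IsCyclic.exists_generator (α := L ≃ₐ[K] L)
  have main := card_quot_normImage K L p hK.odd hT hK.deg hζ σ hσ S
    (unramOutside_of_unram K L (S : Set (Pl K)) hS.unram) hS.prinK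
  rw [nsCount_eq, nrmS_eq_normImage]
  set n := (nonsplit K L S).card with hn
  have hrel : (normImage K L (S : Set (Pl K))).relIndex (NIT.sunit K (S : Set (Pl K))) =
      Nat.card (sU K (S : Set (Pl K)) ⧸
        (normImage K L (S : Set (Pl K))).subgroupOf (sU K (S : Set (Pl K)))) := rfl
  rw [hrel]
  have hp2 := hK.prime.two_le
  have hn1 : 1 ≤ n := by
    rcases Nat.eq_zero_or_pos n with h0 | h0
    · rw [h0, pow_zero] at main
      have := Nat.eq_one_of_mul_eq_one_left main
      omega
    · exact h0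
  refine ⟨hn1, ?_⟩
  have : p ^ n = p ^ (n - 1) * p := by
    rw [← pow_succ]; congr 1; omega
  rw [this] at main
  exact Nat.eq_of_mul_eq_mul_right (by omega) main

end main

end Fermat.Agent.S55.NIT.FI
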