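/-
S55 / NIT / FI : `TateLemma p` (cardinality form used in `FI/Main.lean`) from block CYC, and the
final forms of the first inequality without that hypothesis.
-/
import Fermat.Agent.S55.Cyc.Tate
import Fermat.Agent.S55.NIT.FI.Export

set_option autoImplicit false

namespace Fermat.Agent.S55.NIT.FI

open NumberField IsDedekindDomain

universe u

theorem mulOp_eq_zsmul (A : Type*) [AddCommGroup A] (p : ℕ) :
    Cyc.mulOp A p = (zsmulAddGroupHom (p : ℤ) : A →+ A) := by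
  ext a
  simp [Cyc.mulOp]

/-- pure arithmetic: clearing denominators in Tate's formula -/
theorem tate_clear_denominators {h0 h1 aA tA aK tK n m : ℕ} (hh1 : h1 ≠ 0) (haA : aA ≠ 0)
    (htA : tA ≠ 0) (htK : tK ≠ 0)
    (h : ((h0 : ℚ) / (h1 : ℚ)) ^ n = ((aK : ℚ) / (tK : ℚ)) ^ m / ((aA : ℚ) / (tA : ℚ))) :
    h0 ^ n * aA * tK ^ m = h1 ^ n * tA * aK ^ m := by
  have h1' : (h1 : ℚ) ≠ 0 := Nat.cast_ne_zero.mpr hh1
  have h2' : (aA : ℚ) ≠ 0 := Nat.cast_ne_zero.mpr haA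
  have h3' : (tA : ℚ) ≠ 0 := Nat.cast_ne_zero.mpr htA
  have h4' : (tK : ℚ) ≠ 0 := Nat.cast_ne_zero.mpr htK
  rw [div_pow, div_pow] at h
  field_simp at h
  have : ((h0 ^ n * aA * tK ^ m : ℕ) : ℚ) = ((h1 ^ n * tA * aK ^ m : ℕ) : ℚ) := by
    push_cast
    linarith
  exact_mod_cast this

theorem tateLemma (p : ℕ) (hp : p.Prime) : TateLemma.{u} p := by
  intro A _ s hs hfin1 hfin2 D N hD hN
  have hDs : D = Cyc.dOp s := by
    ext a; rw [hD]; rfl
  have hNs : N = Cyc.nOp p s := by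
    ext a; rw [hN]; rfl
  subst hDs hNs
  have hPhi : Cyc.PhiDef A p := by
    rw [Cyc.phiDef_iff, mulOp_eq_zsmul]
    exact ⟨Nat.card_pos.ne', Nat.card_pos.ne'⟩
  obtain ⟨hK, hH, hT⟩ := Cyc.tate_lemma p hp s hs hPhi
  rw [Cyc.phiDef_iff, mulOp_eq_zsmul] at hK hPhi
  rw [Cyc.phi_eq, Cyc.phi_eq, mulOp_eq_zsmul, mulOp_eq_zsmul] at hT
  refine ⟨Nat.finite_of_card_ne_zero hH.1, Nat.finite_of_card_ne_zero hH.2,
    Nat.finite_of_card_ne_zero hK.1, ?_⟩
  exact tate_clear_denominators hH.2 hPhi.1 hPhi.2 hK.2 hT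

variable (K L : Type u) [Field K] [NumberField K] [Field L] [NumberField L] [Algebra K L]

/-- **First inequality**, `S`-unit form, FI vocabulary. -/
theorem first_inequality_card [IsGalois K L] (p : ℕ) [Fact p.Prime] (hp2 : p ≠ 2)
    (hdeg : Module.finrank K L = p) {ζ : K} (hζ : IsPrimitiveRoot ζ p)
    (σ : L ≃ₐ[K] L) (hσ : ∀ τ : L ≃ₐ[K] L, τ ∈ Subgroup.zpowers σ)
    (S : Finset (Pl K)) (hur : UnramOutside K L (S : Set (Pl K)))
    (hcl : ClassGen K (S : Set (Pl K))) :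
    Nat.card (sU K (S : Set (Pl K)) ⧸
        (normImage K L (S : Set (Pl K))).subgroupOf (sU K (S : Set (Pl K)))) * p
      = p ^ (nonsplit K L S).card :=
  card_quot_normImage K L p hp2 (tateLemma p Fact.out) hdeg hζ σ hσ S hur hcl

/-- **First inequality**, node N2 of `NIT.Nodes`. -/
theorem first_inequality (p : ℕ) (hK : NIT.Kum K L p) (S : Finset (Pl K))
    (hS : NIT.Big K L p S) :
    1 ≤ NIT.nsCount K L S ∧
      (NIT.nrmS K L (S : Set (Pl K))).relIndex (NIT.sunit K (S : Set (Pl K))) =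
        p ^ (NIT.nsCount K L S - 1) :=
  unit_norm_index K L p hK (tateLemma p hK.prime) S hS

end Fermat.Agent.S55.NIT.FI
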